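import Fermat.Agent.HeckeSemisimple.Petersson
import Fermat.Prelude.Def_ModularForm_HeckeOperatorForms

/-!
# The trivial bound for Hecke eigenvalues is strict: `T_p f = c f`, `p + 1 ≤ ‖c‖` forces `f = 0`
-/

set_option autoImplicit false

noncomputable section

open UpperHalfPlane CongruenceSubgroup Filter
open scoped MatrixGroups ModularForm Topology Modular Pointwise ConjAct

namespace Fermat.Agent.HeckeSemisimple

variable {N : ℕ} [NeZero N]

/-- `|f| y`. -/
def height (f : ℍ → ℂ) (τ : ℍ) : ℝ := ‖f τ‖ * τ.im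

theorem height_nonneg (f : ℍ → ℂ) (τ : ℍ) : 0 ≤ height f τ :=
  mul_nonneg (norm_nonneg _) τ.im_pos.le

omit [NeZero N] in
theorem height_eq_sqrt (f : ℍ → ℂ) (τ : ℍ) : height f τ = √‖petersson 2 f f τ‖ := by
  rw [show ‖petersson 2 f f τ‖ = height f τ ^ 2 by
      simp only [petersson, norm_mul, Complex.norm_conj, height, zpow_ofNat, norm_pow,
        Complex.norm_real, Real.norm_of_nonneg τ.im_pos.le]
      ring,
    Real.sqrt_sq (height_nonneg f τ)]

theorem height_smul (f : CuspForm (Gamma0 N) 2) (γ : Gamma0 N) (τ : ℍ) :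
    height ⇑f (((γ : SL(2, ℤ)) : GL (Fin 2) ℝ) • τ) = height ⇑f τ := by
  rw [height_eq_sqrt, height_eq_sqrt]
  exact congrArg Real.sqrt (SlashInvariantFormClass.norm_petersson_smul
    (Γ := (Gamma0 N : Subgroup (GL (Fin 2) ℝ))) (Subgroup.mem_map_of_mem _ γ.2))

theorem tendsto_height (f : CuspForm (Gamma0 N) 2) (δ : SL(2, ℤ)) :
    Tendsto (fun τ : ℍ => height ⇑f (δ • τ)) atImInfty (𝓝 0) := by
  simp_rw [height_eq_sqrt, ← UpperHalfPlane.petersson_slash_SL]
  rw [← Real.sqrt_zero, ← norm_zero (E := ℂ)]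
  refine (Real.continuous_sqrt.tendsto _).comp (Tendsto.norm ?_)
  have : ((ConjAct.toConjAct (δ : GL (Fin 2) ℝ)⁻¹) •
      (Gamma0 N : Subgroup (GL (Fin 2) ℝ))).IsArithmetic := by
    simpa [(show Rat.castHom ℝ = algebraMap ℚ ℝ by rfl), map_inv,
      Matrix.SpecialLinearGroup.map_mapGL]
      using! Subgroup.IsArithmetic.conj (Gamma0 N : Subgroup (GL (Fin 2) ℝ))
        (Matrix.SpecialLinearGroup.mapGL ℚ δ)⁻¹
  exact (CuspFormClass.zero_at_infty <| CuspForm.translate f δ).petersson_isZeroAtImInfty_left 2 _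
    (CuspForm.translate f δ)

/-- The height attains its supremum. -/
theorem exists_max_height (f : CuspForm (Gamma0 N) 2) :
    ∃ τ₀, ∀ τ, height ⇑f τ ≤ height ⇑f τ₀ := by
  classical
  by_cases hz : ∀ τ, height ⇑f τ = 0
  · exact ⟨UpperHalfPlane.I, fun τ => by rw [hz τ, hz]⟩
  push Not at hz
  obtain ⟨τ₁, hτ₁⟩ := hz
  have hv : 0 < height ⇑f τ₁ := lt_of_le_of_ne (height_nonneg _ _) (Ne.symm hτ₁)
  let : Fintype (SL(2, ℤ) ⧸ Gamma0 N) := Subgroup.fintypeQuotientOfFiniteIndex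
  set R : Finset SL(2, ℤ) := (Finset.univ (α := SL(2, ℤ) ⧸ Gamma0 N)).image Quotient.out
  have key : ∀ τ : ℍ, ∃ δ ∈ R, ∃ σ ∈ 𝒟, height ⇑f τ = height ⇑f (δ⁻¹ • σ) := by
    intro τ
    obtain ⟨g, hg⟩ := ModularGroup.exists_smul_mem_fd τ
    obtain ⟨h, hh⟩ := QuotientGroup.mk_out_eq_mul (Gamma0 N) g
    refine ⟨(g : SL(2, ℤ) ⧸ Gamma0 N).out, Finset.mem_image_of_mem _ (Finset.mem_univ _),
      g • τ, hg, ?_⟩
    rw [hh, mul_inv_rev, mul_smul, inv_smul_smul]
    exact (height_smul f h⁻¹ τ).symm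
  have hev : ∀ δ ∈ R, ∀ᶠ τ in atImInfty, height ⇑f (δ⁻¹ • τ) < height ⇑f τ₁ := fun δ _ =>
    (tendsto_height f δ⁻¹).eventually_lt_const hv
  obtain ⟨Y, hY⟩ := (UpperHalfPlane.atImInfty_mem _).mp ((Finset.eventually_all R).mpr hev)
  obtain ⟨δ₁, hδ₁, σ₁, hσ₁, he⟩ := key τ₁
  have hσY : σ₁.im ≤ max Y 1 := by
    by_contra hc
    push Not at hc
    exact (hY σ₁ ((le_max_left _ _).trans hc.le) δ₁ hδ₁).ne he.symm
  set K : Set ℍ := ⋃ δ ∈ R, (fun σ : ℍ => ((δ⁻¹ : SL(2, ℤ)) : GL (Fin 2) ℝ) • σ) ''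
    ModularGroup.truncatedFundamentalDomain (max Y 1)
  have hK : IsCompact K := R.finite_toSet.isCompact_biUnion fun δ _ =>
    (ModularGroup.isCompact_truncatedFundamentalDomain _).image (continuous_const_smul _)
  have hmem : δ₁⁻¹ • σ₁ ∈ K :=
    Set.mem_biUnion hδ₁ ⟨σ₁, ⟨hσ₁, hσY⟩, rfl⟩
  have hc : Continuous (height ⇑f) :=
    (CuspFormClass.holo f).continuous.norm.mul UpperHalfPlane.continuous_im
  obtain ⟨τ₀, -, hτ₀⟩ := hK.exists_isMaxOn ⟨_, hmem⟩ hc.continuousOn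
  refine ⟨τ₀, fun τ => ?_⟩
  obtain ⟨δ, hδ, σ, hσ, hτ⟩ := key τ
  rw [hτ]
  by_cases hσ' : σ.im ≤ max Y 1
  · exact hτ₀ (Set.mem_biUnion hδ ⟨σ, ⟨hσ, hσ'⟩, rfl⟩)
  · push Not at hσ'
    exact ((hY σ ((le_max_left _ _).trans hσ'.le) δ hδ).le).trans (he ▸ hτ₀ hmem)

/-- An eigenvalue of `T_p` on cusp forms has absolute value less than `p + 1`. -/
theorem eq_zero_of_heckeT_eigen {p : ℕ} [hp : Fact p.Prime] (f : CuspForm (Gamma0 N) 2) {c : ℂ}
    (hc : (p : ℝ) + 1 ≤ ‖c‖) (h : ModularForm.heckeT 2 p ⇑f = c • ⇑f) : f = 0 := by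
  obtain ⟨τ₀, hmax⟩ := exists_max_height f
  set m := height ⇑f τ₀
  have hp0 : p ≠ 0 := hp.out.ne_zero
  have hpR : (0 : ℝ) < p := by exact_mod_cast hp.out.pos
  have step : ∀ τ, height ⇑f τ = m →
      height ⇑f (ModularForm.heckeDiagMatrix p • τ) = m := by
    intro τ hτ
    refine le_antisymm (hmax _) ?_
    have hT := congrFun h τ
    rw [Pi.smul_apply, smul_eq_mul, ModularForm.heckeT_apply 2 hp0] at hT
    have hj : ∀ j : ℕ, ‖(p : ℂ)⁻¹ * f (ModularForm.heckeMatrix p j • τ)‖ * τ.im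
        = height ⇑f (ModularForm.heckeMatrix p j • τ) := fun j => by
      have him : (ModularForm.heckeMatrix p j • τ).im = τ.im / p := by
        rw [← UpperHalfPlane.coe_im, ModularForm.coe_heckeMatrix_smul hp0]
        simp
      rw [height, him, norm_mul, norm_inv, Complex.norm_natCast]
      ring
    have hd : ‖(p : ℂ) ^ ((2 : ℤ) - 1) * f (ModularForm.heckeDiagMatrix p • τ)‖ * τ.im
        = height ⇑f (ModularForm.heckeDiagMatrix p • τ) := by
      have him : (ModularForm.heckeDiagMatrix p • τ).im = p * τ.im := by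
        rw [← UpperHalfPlane.coe_im, ModularForm.coe_heckeDiagMatrix_smul hp0]
        simp
      rw [height, him, norm_mul, show (2 : ℤ) - 1 = 1 by norm_num, zpow_one, Complex.norm_natCast]
      ring
    have hle : ‖c‖ * m ≤ p * m + height ⇑f (ModularForm.heckeDiagMatrix p • τ) := by
      calc ‖c‖ * m = ‖c * f τ‖ * τ.im := by rw [← hτ, height, norm_mul, mul_assoc]
        _ ≤ (∑ j ∈ Finset.range p, ‖(p : ℂ)⁻¹ * f (ModularForm.heckeMatrix p j • τ)‖ +
            ‖(p : ℂ) ^ ((2 : ℤ) - 1) * f (ModularForm.heckeDiagMatrix p • τ)‖) * τ.im := by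
          refine mul_le_mul_of_nonneg_right ?_ τ.im_pos.le
          rw [← hT, Finset.mul_sum]
          exact (norm_add_le _ _).trans (add_le_add (norm_sum_le _ _) le_rfl)
        _ ≤ _ := by
          rw [add_mul, hd, Finset.sum_mul]
          refine add_le_add ?_ le_rfl
          simp only [hj]
          exact (Finset.sum_le_card_nsmul _ _ m fun j _ => hmax _).trans (by simp)
    nlinarith [height_nonneg (⇑f) τ₀]
  have hiter : ∀ n : ℕ, height ⇑f (ModularForm.heckeDiagMatrix p ^ n • τ₀) = m := by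
    intro n
    induction n with
    | zero => rw [pow_zero, one_smul]
    | succ n ih => rw [pow_succ', mul_smul]; exact step _ ih
  have him : ∀ n : ℕ, (ModularForm.heckeDiagMatrix p ^ n • τ₀).im = (p : ℝ) ^ n * τ₀.im := by
    intro n
    induction n with
    | zero => rw [pow_zero, one_smul, pow_zero, one_mul]
    | succ n ih =>
      rw [pow_succ', mul_smul, ← UpperHalfPlane.coe_im, ModularForm.coe_heckeDiagMatrix_smul hp0,
        show ((p : ℂ) * ((ModularForm.heckeDiagMatrix p ^ n • τ₀ : ℍ) : ℂ)).im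
          = (p : ℝ) * (ModularForm.heckeDiagMatrix p ^ n • τ₀).im by simp, ih, pow_succ']
      ring
  have hlim : Tendsto (fun n : ℕ => ModularForm.heckeDiagMatrix p ^ n • τ₀) atTop atImInfty := by
    rw [atImInfty, tendsto_comap_iff]
    simp only [Function.comp_def, him]
    exact (tendsto_pow_atTop_atTop_of_one_lt (by exact_mod_cast hp.out.one_lt)).atTop_mul_const
      τ₀.im_pos
  have hm : m = 0 := by
    have h0 := (tendsto_height f 1).comp hlim
    simp only [Function.comp_def, one_smul, hiter] at h0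
    exact tendsto_nhds_unique tendsto_const_nhds h0
  refine DFunLike.ext _ _ fun τ => ?_
  have h1 : height ⇑f τ = 0 := le_antisymm ((hmax τ).trans hm.le) (height_nonneg _ _)
  simpa [height, τ.im_ne_zero] using h1

end Fermat.Agent.HeckeSemisimple
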