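import Mathlib.LinearAlgebra.Semisimple
import Mathlib.RingTheory.Localization.BaseChange
import Mathlib.RingTheory.Localization.FractionRing
import Mathlib.RingTheory.TensorProduct.Finite
import Mathlib.RingTheory.Nilpotent.Basic
import Mathlib.FieldTheory.Perfect

/-!
# Algebras generated by elements with squarefree annihilating polynomials are reduced
-/

set_option autoImplicit false

open Polynomial
open scoped TensorProduct

namespace Fermat.Agent.HeckeSemisimple

/-- Over a perfect field. -/
theorem isReduced_of_adjoin_squarefree {K A : Type*} [Field K] [PerfectField K] [CommRing A]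
    [Algebra K A] [Module.Finite K A] {s : Set A} (hs : Algebra.adjoin K s = ⊤)
    (h : ∀ x ∈ s, ∃ q : K[X], Squarefree q ∧ aeval x q = 0) : IsReduced A := by
  have hss : ∀ x : A, (Algebra.lmul K A x).IsSemisimple := by
    intro x
    have hx : x ∈ Algebra.adjoin K s := hs ▸ Algebra.mem_top
    induction hx using Algebra.adjoin_induction with
    | mem x hx =>
      obtain ⟨q, hq, h0⟩ := h x hx
      refine Module.End.isSemisimple_of_squarefree_aeval_eq_zero hq ?_
      rw [Polynomial.aeval_algHom_apply (Algebra.lmul K A) x q, h0, map_zero]
    | algebraMap r =>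
      refine Module.End.isSemisimple_of_squarefree_aeval_eq_zero
        ((separable_X_sub_C (x := r)).squarefree) ?_
      rw [map_sub, aeval_X, aeval_C, AlgHom.commutes, sub_self]
    | add x y _ _ hx hy =>
      rw [map_add]
      exact Module.End.IsSemisimple.add_of_commute ((Commute.all x y).map _) hx hy
    | mul x y _ _ hx hy =>
      rw [map_mul]
      exact Module.End.IsSemisimple.mul_of_commute ((Commute.all x y).map _) hx hy
  refine ⟨fun x hx => ?_⟩
  have h0 := Module.End.eq_zero_of_isNilpotent_isSemisimple (hx.map (Algebra.lmul K A)) (hss x)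
  simpa using congrArg (fun f : Module.End K A => f 1) h0

/-- Over a domain of characteristic zero, with integral polynomials squarefree over `ℚ`. -/
theorem isReduced_of_adjoin_int_squarefree {O T : Type*} [CommRing O] [IsDomain O] [CharZero O]
    [CommRing T] [Algebra O T] [Module.Finite O T] [Module.IsTorsionFree O T] {s : Set T}
    (hs : Algebra.adjoin O s = ⊤)
    (h : ∀ x ∈ s, ∃ q : ℤ[X], Squarefree (q.map (Int.castRingHom ℚ)) ∧ aeval x q = 0) :
    IsReduced T := by
  set K := FractionRing O
  have : CharZero K := ⟨fun a b h => Nat.cast_injective (R := O) (IsFractionRing.injective O K (by simpa using h))⟩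
  let incl : T →ₐ[O] K ⊗[O] T := Algebra.TensorProduct.includeRight
  have hinj : Function.Injective incl := by
    rw [injective_iff_map_eq_zero]
    intro x hx
    obtain ⟨c, hc⟩ := (IsLocalizedModule.eq_zero_iff (nonZeroDivisors O)
      (TensorProduct.mk O K T 1)).mp hx
    exact (smul_eq_zero.mp hc).resolve_left (nonZeroDivisors.coe_ne_zero c)
  have hgen : Algebra.adjoin K (incl '' s) = ⊤ := by
    refine eq_top_iff.mpr fun z _ => ?_
    induction z using TensorProduct.induction_on with
    | zero => exact zero_mem _
    | tmul a t =>
      rw [show a ⊗ₜ[O] t = a • incl t by simp [incl, TensorProduct.smul_tmul']]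
      refine Subalgebra.smul_mem _ ?_ a
      have ht : t ∈ Algebra.adjoin O s := hs ▸ Algebra.mem_top
      have := Subalgebra.map_mono (f := incl) (le_of_eq (rfl : Algebra.adjoin O s = _))
        ⟨t, ht, rfl⟩
      rw [AlgHom.map_adjoin] at this
      exact (Algebra.adjoin_le Algebra.subset_adjoin :
        Algebra.adjoin O (incl '' s) ≤ (Algebra.adjoin K (incl '' s)).restrictScalars O) this
    | add x y hx hy => exact add_mem (hx trivial) (hy trivial)
  have : IsReduced (K ⊗[O] T) := by
    refine isReduced_of_adjoin_squarefree hgen ?_
    rintro _ ⟨x, hx, rfl⟩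
    obtain ⟨q, hq, h0⟩ := h x hx
    refine ⟨q.map (Int.castRingHom K), ?_, ?_⟩
    · have hsep : (q.map (Int.castRingHom ℚ)).Separable :=
        PerfectField.separable_iff_squarefree.mpr hq
      have hmap := hsep.map (f := (Rat.castHom K))
      rw [Polynomial.map_map, RingHom.ext_int ((Rat.castHom K).comp (Int.castRingHom ℚ))
        (Int.castRingHom K)] at hmap
      exact hmap.squarefree
    · rw [Polynomial.aeval_def, Polynomial.eval₂_map,
        RingHom.ext_int ((algebraMap K (K ⊗[O] T)).comp (Int.castRingHom K))
          ((incl : T →+* K ⊗[O] T).comp (Int.castRingHom T)), ← RingHom.coe_coe incl,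
        ← Polynomial.hom_eval₂, ← algebraMap_int_eq, ← Polynomial.aeval_def, h0, map_zero]
  exact isReduced_of_injective incl hinj

end Fermat.Agent.HeckeSemisimple
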