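import Fermat.Agent.HeckeSemisimple.Algebra
import Fermat.Agent.HeckeSemisimple.Reduced
import Fermat.Agent.EigenSystems.Periods
import Fermat.Agent.HeckeEigen.QCoeff
import Fermat.Agent.HeckeFinite.Hecke
import Fermat.Agent.HeckeModule.Away
import Mathlib.RingTheory.Localization.BaseChange
import Mathlib.FieldTheory.Minpoly.Field
import Mathlib.RingTheory.Polynomial.GaussLemma

/-!
# Semisimplicity on `H¹(Γ₀(N))`

For `ℓ ∤ N` one integral polynomial, squarefree over `ℚ`, kills the image of every Eisenstein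
element `T_q - (q + 1)`, `q ≡ 1 (mod N)`, in the first cohomology with torsion-free trivial
coefficients.
-/

set_option autoImplicit false

open CongruenceSubgroup Polynomial
open scoped MatrixGroups ComplexConjugate

universe uO uA

namespace Fermat.Agent.HeckeSemisimple

open HeckeJ0 HeckeModule EigenSystems

variable {N : ℕ} [NeZero N]

/-- An integral polynomial, squarefree over `ℚ`, killing `T_ℓ` on forms. -/
theorem exists_squarefree_int {ℓ : ℕ} (hℓ : ℓ.Prime) (hℓN : ¬ ℓ ∣ N) :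
    ∃ q : ℤ[X], q.Monic ∧ Squarefree (q.map (Int.castRingHom ℚ)) ∧
      aeval (CuspForm.heckeTLin 2 hℓ hℓN : Module.End ℂ (CuspForm (Gamma0 N) 2)) q = 0 := by
  let : Algebra ℚ (Module.End ℂ (CuspForm (Gamma0 N) 2)) :=
    ((algebraMap ℂ (Module.End ℂ (CuspForm (Gamma0 N) 2))).comp (algebraMap ℚ ℂ)).toAlgebra'
      fun c x => Algebra.commutes (algebraMap ℚ ℂ c) x
  have : IsScalarTower ℚ ℂ (Module.End ℂ (CuspForm (Gamma0 N) 2)) :=
    IsScalarTower.of_algebraMap_eq' rfl
  have : IsScalarTower ℤ ℚ (Module.End ℂ (CuspForm (Gamma0 N) 2)) :=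
    IsScalarTower.of_algebraMap_eq' (RingHom.ext_int _ _)
  set T : Module.End ℂ (CuspForm (Gamma0 N) 2) := CuspForm.heckeTLin 2 hℓ hℓN with hTdef
  have hT : T ∈ Algebra.adjoin ℂ (awayOps N) := Algebra.subset_adjoin ⟨ℓ, hℓ, hℓN, rfl⟩
  have hmem : ∀ q : ℚ[X], aeval T q ∈ Algebra.adjoin ℂ (awayOps N) := fun q => by
    rw [← aeval_map_algebraMap ℂ]
    exact Algebra.adjoin_mono (Set.singleton_subset_iff.mpr
      (show T ∈ awayOps N from ⟨ℓ, hℓ, hℓN, rfl⟩))
      (Polynomial.aeval_mem_adjoin_singleton ℂ T)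
  have hint : IsIntegral ℚ T := by
    have := HeckeFinite.finite_heckeAlgebra N 2 (∅ : Set ℕ)
    have h1 : IsIntegral ℤ (⟨T, CuspForm.heckeTLin_mem_heckeAlgebra hℓ hℓN (by simp)⟩ :
        CuspForm.heckeAlgebra N 2 ∅) := Algebra.IsIntegral.isIntegral _
    exact (h1.map (CuspForm.heckeAlgebra N 2 ∅).val).tower_top
  have h0 : minpoly ℚ T ≠ 0 := minpoly.ne_zero hint
  have hsq : Squarefree (minpoly ℚ T) := by
    intro a ⟨b, hb⟩
    have ha : a ≠ 0 := fun h => h0 (by rw [hb, h]; ring)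
    have hb0 : b ≠ 0 := fun h => h0 (by rw [hb, h, mul_zero])
    by_contra hu
    have hab : aeval T (a * b) = 0 := eq_zero_of_isNilpotent (hmem _) ⟨2, by
      rw [← map_pow, show (a * b) ^ 2 = minpoly ℚ T * b by rw [hb]; ring, map_mul, minpoly.aeval,
        zero_mul]⟩
    have hdeg : (minpoly ℚ T).natDegree ≤ (a * b).natDegree :=
      natDegree_le_of_dvd (minpoly.dvd ℚ T hab) (mul_ne_zero ha hb0)
    rw [hb, natDegree_mul (mul_ne_zero ha ha) hb0, natDegree_mul ha ha, natDegree_mul ha hb0] at hdeg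
    exact hu (isUnit_iff_degree_eq_zero.mpr (by
      rw [degree_eq_natDegree ha, show a.natDegree = 0 by omega]; rfl))
  have hint' : IsIntegral ℤ T := by
    have := HeckeFinite.finite_heckeAlgebra N 2 (∅ : Set ℕ)
    exact (Algebra.IsIntegral.isIntegral (R := ℤ)
      (⟨T, CuspForm.heckeTLin_mem_heckeAlgebra hℓ hℓN (by simp)⟩ :
        CuspForm.heckeAlgebra N 2 ∅)).map (CuspForm.heckeAlgebra N 2 ∅).val
  obtain ⟨h, hm, hh⟩ := hint'
  have hdvd : minpoly ℚ T ∣ h.map (algebraMap ℤ ℚ) :=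
    minpoly.dvd ℚ T (by rw [aeval_map_algebraMap]; exact hh)
  obtain ⟨q, hq⟩ := IsIntegrallyClosed.eq_map_mul_C_of_dvd ℚ hm hdvd
  rw [(minpoly.monic hint).leadingCoeff, Polynomial.C_1, mul_one, algebraMap_int_eq] at hq
  refine ⟨q, ?_, by rwa [hq], ?_⟩
  · exact monic_of_injective Int.cast_injective (by rw [hq]; exact minpoly.monic hint)
  · rw [← aeval_map_algebraMap ℚ, algebraMap_int_eq, hq, minpoly.aeval]

/-! ### Integral polynomials and additive maps commuting with an operator -/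

theorem map_aeval_int {R R' X Y : Type*} [CommRing R] [CommRing R'] [AddCommGroup X] [Module R X]
    [AddCommGroup Y] [Module R' Y] (S : Module.End R X) (S' : Module.End R' Y) (Φ : X →+ Y)
    (h : ∀ x, Φ (S x) = S' (Φ x)) (q : ℤ[X]) (x : X) :
    Φ (aeval S q x) = aeval S' q (Φ x) := by
  induction q using Polynomial.induction_on' with
  | add p q hp hq => simp only [map_add, LinearMap.add_apply, hp, hq]
  | monomial i r =>
    have hpow : ∀ (j : ℕ) (y : X), Φ ((S ^ j) y) = (S' ^ j) (Φ y) := by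
      intro j
      induction j with
      | zero => intro y; rfl
      | succ j ih =>
        intro y
        rw [pow_succ, pow_succ, Module.End.mul_apply, Module.End.mul_apply, ih, h]
    simp only [aeval_monomial, algebraMap_int_eq, eq_intCast, ← zsmul_eq_mul, LinearMap.smul_apply,
      map_zsmul, hpow]

/-! ### Classes -/

section Trivial

variable {O : Type uO} [CommRing O] {A : Type uA} [AddCommGroup A] [Module O A]
  {ρ : Representation O (ZMod N)ˣ A} (hρ : ∀ u, ρ u = 1)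

/-- A cocycle from trivial coefficients, mapped by an additive map, as a map of classes. -/
noncomputable def mapClass {R : Type*} [CommRing R] {B : Type*} [AddCommGroup B] [Module R B]
    {σ : Representation R (ZMod N)ˣ B} (hσ : ∀ u, σ u = 1) (f : A →+ B) :
    Coh1 ρ →+ Coh1 σ :=
  let e := Equiv.ofBijective (toCoh ρ) ⟨EigenSystems.toCoh_injective hρ, toCoh_surjective ρ⟩
  AddMonoidHom.mk' (fun u => toCoh σ (mapCocycle hρ hσ f (e.symm u))) fun u v => by
    have he : e.symm (u + v) = e.symm u + e.symm v :=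
      EigenSystems.toCoh_injective hρ (by
        rw [(toCoh ρ).map_add]
        show e (e.symm (u + v)) = e (e.symm u) + e (e.symm v)
        simp only [Equiv.apply_symm_apply])
    rw [he, ← (toCoh σ).map_add]
    exact congrArg _ (Subtype.ext (funext fun γ => map_add f ((e.symm u).1 γ) ((e.symm v).1 γ)))

omit [NeZero N] in
theorem mapClass_toCoh {R : Type*} [CommRing R] {B : Type*} [AddCommGroup B] [Module R B]
    {σ : Representation R (ZMod N)ˣ B} (hσ : ∀ u, σ u = 1) (f : A →+ B) (z : Cocycle ρ) :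
    mapClass hρ hσ f (toCoh ρ z) = toCoh σ (mapCocycle hρ hσ f z) := by
  show toCoh σ (mapCocycle hρ hσ f _) = _
  congr 2
  exact (Equiv.ofBijective (toCoh ρ) _).symm_apply_apply z

omit [NeZero N] in
theorem mapClass_heckeOp {R : Type*} [CommRing R] {B : Type*} [AddCommGroup B] [Module R B]
    {σ : Representation R (ZMod N)ˣ B} (hσ : ∀ u, σ u = 1) (f : A →+ B) (ℓ : ℕ) [Fact ℓ.Prime]
    (u : Coh1 ρ) : mapClass hρ hσ f (heckeOp ρ ℓ u) = heckeOp σ ℓ (mapClass hρ hσ f u) := by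
  have : NeZero ℓ := ⟨(Fact.out : ℓ.Prime).ne_zero⟩
  obtain ⟨z, rfl⟩ := toCoh_surjective ρ u
  rw [heckeOp_toCoh, mapClass_toCoh, mapClass_toCoh, mapCocycle_hecke, ← heckeOp_toCoh]

include hρ in
/-- The image of an Eisenstein element is parabolic. -/
theorem isParabolicHom_eisen [Module.IsTorsionFree ℤ A] {r : ℕ} [Fact r.Prime]
    (hr : (r : ZMod N) = 1) {w z : Cocycle ρ} (h : toCoh ρ w = eisen O r • toCoh ρ z) :
    ModularCurve.Period.IsParabolicHom (Gamma0 N) (homOf hρ w) := by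
  have : NeZero r := ⟨(Fact.out : r.Prime).ne_zero⟩
  rw [eisen_smul, heckeOp_toCoh, ← map_smul, ← map_sub] at h
  rw [EigenSystems.toCoh_injective hρ h]
  refine isParabolicHom_homOf hρ fun u v huv => ?_
  have hb := boundary_hecke hr z huv
  show (heckeData ρ r).raw z.1 (parElt N u v 1) - ((r : O) + 1) • z.1 (parElt N u v 1) = 0
  rw [show ((r : O) + 1) • z.1 (parElt N u v 1) = ((r : ℤ) + 1) • z.1 (parElt N u v 1) by
    rw [← Int.cast_smul_eq_zsmul O]; push_cast; rfl]
  exact (smul_eq_zero.mp hb).resolve_left (by exact_mod_cast (Fact.out : r.Prime).ne_zero)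

end Trivial

/-- Over `ℂ`: a polynomial killing `T_ℓ` on forms kills the parabolic classes. -/
theorem aeval_heckeOp_eq_zero {ℓ : ℕ} [hℓ : Fact ℓ.Prime] (hℓN : ¬ ℓ ∣ N) {q : ℤ[X]}
    (hq : aeval (CuspForm.heckeTLin 2 hℓ.out hℓN : Module.End ℂ (CuspForm (Gamma0 N) 2)) q = 0)
    {w : Cocycle (cRep N)}
    (hw : ModularCurve.Period.IsParabolicHom (Gamma0 N) (homOf cRep_eq_one w)) :
    aeval (heckeOp (cRep N) ℓ) q (toCoh (cRep N) w) = 0 := by
  obtain ⟨a, b, rfl⟩ := exists_period_add_conj w hw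
  have hP : ∀ f : CuspForm (Gamma0 N) 2, aeval (heckeOp (cRep N) ℓ) q (periodClass f) = 0 :=
    fun f => by
      rw [show periodClass f = periodClass.toAddMonoidHom f from rfl,
        ← map_aeval_int (CuspForm.heckeTLin 2 hℓ.out hℓN :
          Module.End ℂ (CuspForm (Gamma0 N) 2)) _ _ (fun g => by
            show periodClass _ = _
            rw [LinearMap.toAddMonoidHom_coe, ← periodClass_heckeAt, LevelRaising.heckeAt, dif_neg hℓN]) q f, hq]
      simp
  rw [map_add, map_add, ← periodClass_apply, hP, zero_add,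
    show toCoh (cRep N) (conjCocycle (periodCocycle b))
      = mapClass cRep_eq_one cRep_eq_one (starRingEnd ℂ).toAddMonoidHom (periodClass b) from
      (mapClass_toCoh cRep_eq_one cRep_eq_one _ _).symm,
    ← map_aeval_int _ _ _ (fun u => mapClass_heckeOp cRep_eq_one cRep_eq_one _ ℓ u) q, hP, map_zero]

section Trivial

variable {O : Type uO} [CommRing O] {A : Type uA} [AddCommGroup A] [Module O A]
  {ρ : Representation O (ZMod N)ˣ A} (hρ : ∀ u, ρ u = 1)

include hρ in
/-- A polynomial killing `T_ℓ` on forms kills the images of the Eisenstein elements. -/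
theorem aeval_eisen_smul_eq_zero [Module.IsTorsionFree ℤ A] {ℓ : ℕ} [hℓ : Fact ℓ.Prime]
    (hℓN : ¬ ℓ ∣ N) {q : ℤ[X]}
    (hq : aeval (CuspForm.heckeTLin 2 hℓ.out hℓN : Module.End ℂ (CuspForm (Gamma0 N) 2)) q = 0)
    {r : ℕ} [Fact r.Prime] (hr : (r : ZMod N) = 1) (u : Coh1 ρ) :
    aeval (heckeOp ρ ℓ) q (eisen O r • u) = 0 := by
  obtain ⟨z, rfl⟩ := toCoh_surjective ρ u
  obtain ⟨w, hw⟩ := toCoh_surjective ρ (eisen O r • toCoh ρ z)
  obtain ⟨v, hv⟩ := toCoh_surjective ρ (aeval (heckeOp ρ ℓ) q (eisen O r • toCoh ρ z))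
  rw [← hv, toCoh_eq_zero_iff_of_trivial hρ]
  refine Subtype.ext (funext fun γ => ?_)
  have key : ∀ g : A →+ ℂ, g (v.1 γ) = 0 := by
    intro g
    have h1 := congrArg (mapClass hρ cRep_eq_one g) hv
    rw [← hw, map_aeval_int _ _ _ (fun u => mapClass_heckeOp hρ cRep_eq_one g ℓ u) q,
      mapClass_toCoh, mapClass_toCoh, aeval_heckeOp_eq_zero hℓN hq (w := mapCocycle hρ cRep_eq_one g w)
        ?_] at h1
    · exact congrArg (fun c : Cocycle (cRep N) => c.1 γ)
        ((toCoh_eq_zero_iff_of_trivial cRep_eq_one).mp h1)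
    · intro δ hδ
      show g (homOf hρ w _) = 0
      rw [isParabolicHom_eisen hρ hr hw δ hδ, map_zero]
  by_contra hne
  obtain ⟨g, hg⟩ := exists_addHom_ne_zero (v.1 γ) hne
  exact hg (key g)
where
  exists_addHom_ne_zero {A : Type uA} [AddCommGroup A] [Module.IsTorsionFree ℤ A] (a : A)
      (ha : a ≠ 0) : ∃ g : A →+ ℂ, g a ≠ 0 := by
    let j : A →ₗ[ℤ] TensorProduct ℤ ℚ A := TensorProduct.mk ℤ ℚ A 1
    have : IsLocalizedModule (nonZeroDivisors ℤ) j :=
      (isLocalizedModule_iff_isBaseChange _ ℚ _).mpr (TensorProduct.isBaseChange _ _ _)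
    have hj : j a ≠ 0 := fun h => by
      obtain ⟨c, hc⟩ := (IsLocalizedModule.eq_zero_iff (nonZeroDivisors ℤ) j).mp h
      exact ha ((smul_eq_zero.mp hc).resolve_left (nonZeroDivisors.coe_ne_zero c))
    obtain ⟨φ, hφ⟩ : ∃ φ : Module.Dual ℚ (TensorProduct ℤ ℚ A), φ (j a) ≠ 0 := by
      by_contra h
      push Not at h
      exact hj ((Module.forall_dual_apply_eq_zero_iff ℚ _).mp h)
    exact ⟨((algebraMap ℚ ℂ).toAddMonoidHom.comp φ.toAddMonoidHom).comp j.toAddMonoidHom,
      fun h => hφ ((algebraMap ℚ ℂ).injective (h.trans (map_zero _).symm))⟩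

include hρ in
/-- The operators at primes prime to the level are semisimple on the non-Eisenstein part: one
integral polynomial, squarefree over `ℚ`, for all torsion-free trivial coefficients. -/
theorem exists_squarefree_eisen_smul [Module.IsTorsionFree ℤ A] {ℓ : ℕ} [hℓ : Fact ℓ.Prime]
    (hℓN : ¬ ℓ ∣ N) :
    ∃ q : ℤ[X], q.Monic ∧ Squarefree (q.map (Int.castRingHom ℚ)) ∧ ∀ (r : ℕ) [Fact r.Prime],
      (r : ZMod N) = 1 → ∀ u : Coh1 ρ, (aeval (MvPolynomial.X (⟨ℓ, hℓ.out⟩ : Nat.Primes) :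
        HeckePoly O) q * eisen O r) • u = 0 := by
  obtain ⟨q, hmon, hsq, hq⟩ := exists_squarefree_int (N := N) hℓ.out hℓN
  refine ⟨q, hmon, hsq, fun r _ hr u => ?_⟩
  have h := aeval_eisen_smul_eq_zero hρ hℓN hq hr u
  rw [mul_smul, heckePoly_smul_def]
  have e := Polynomial.aeval_algHom_apply ((heckeHom ρ).restrictScalars ℤ)
    (MvPolynomial.X (⟨ℓ, hℓ.out⟩ : Nat.Primes)) q
  have hX : ((heckeHom ρ).restrictScalars ℤ) (MvPolynomial.X (⟨ℓ, hℓ.out⟩ : Nat.Primes)) =
      heckeOp ρ ℓ := heckeHom_X ρ ⟨ℓ, hℓ.out⟩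
  exact (DFunLike.congr_fun (e.symm.trans
    (congrArg (fun T : Module.End O (Coh1 ρ) => aeval T q) hX)) _).trans h

include hρ in
/-- On the localisation at a non-Eisenstein multiplicative set. -/
theorem exists_squarefree_cohLoc [Module.IsTorsionFree ℤ A] (m : Submonoid (HeckePoly O))
    (hm : NonEisenstein N m) {ℓ : ℕ} [hℓ : Fact ℓ.Prime] (hℓN : ¬ ℓ ∣ N) :
    ∃ q : ℤ[X], q.Monic ∧ Squarefree (q.map (Int.castRingHom ℚ)) ∧ ∀ x : CohLoc m ρ,
      aeval (MvPolynomial.X (⟨ℓ, hℓ.out⟩ : Nat.Primes) : HeckePoly O) q • x = 0 := by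
  obtain ⟨q, hmon, hsq, hq⟩ := exists_squarefree_eisen_smul hρ (ℓ := ℓ) hℓN
  refine ⟨q, hmon, hsq, fun x => ?_⟩
  obtain ⟨r, hr, hr1, hmem⟩ := hm
  have : Fact r.Prime := ⟨hr⟩
  induction x using LocalizedModule.induction_on with
  | h u s =>
    rw [LocalizedModule.smul'_mk]
    refine (LocalizedModule.mk_eq (S := m)).mpr ⟨⟨_, hmem⟩, ?_⟩ |>.trans
      (LocalizedModule.zero_mk s)
    simp only [Submonoid.smul_def, smul_zero]
    rw [smul_smul, smul_smul]
    refine (congrArg (· • u) (by ring : _ = (s : HeckePoly O) *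
      (aeval (MvPolynomial.X (⟨ℓ, hℓ.out⟩ : Nat.Primes) : HeckePoly O) q * eisen O r))).trans ?_
    rw [mul_smul, hq r hr1, smul_zero]

end Trivial

end Fermat.Agent.HeckeSemisimple
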