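import Fermat.Agent.HeckeSemisimple.Petersson
import Fermat.Prelude.Def_CuspForm_HeckeAlgebra
import Mathlib.LinearAlgebra.JordanChevalley
import Mathlib.Analysis.Complex.Polynomial.Basic

/-!
# The algebra of the Hecke operators away from the level has no nonzero nilpotents
-/

set_option autoImplicit false

noncomputable section

open UpperHalfPlane CongruenceSubgroup
open scoped MatrixGroups ModularForm ComplexConjugate

namespace Fermat.Agent.HeckeSemisimple

variable {N : ℕ} [NeZero N]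

omit [NeZero N] in
theorem slash_Gamma0 (f : CuspForm (Gamma0 N) 2) (γ : Gamma0 N) :
    (⇑f) ∣[(2 : ℤ)] ((γ : SL(2, ℤ)) : GL (Fin 2) ℝ) = ⇑f :=
  SlashInvariantFormClass.slash_action_eq f _ (Subgroup.mem_map_of_mem _ γ.2)

/-- The Petersson product is positive definite. -/
theorem eq_zero_of_pet_self {f : CuspForm (Gamma0 N) 2} (h : pet N ⇑f ⇑f = 0) : f = 0 :=
  DFunLike.coe_injective (eq_zero_of_pet_self_eq_zero (tame_cuspForm N f) (slash_Gamma0 f) h)

theorem pet_add_left (f f' g : CuspForm (Gamma0 N) 2) :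
    pet N ⇑(f + f') ⇑g = pet N ⇑f ⇑g + pet N ⇑f' ⇑g := by
  simp only [pet]
  rw [← MeasureTheory.integral_add (integrable_pet (tame_cuspForm N f) (tame_cuspForm N g))
    (integrable_pet (tame_cuspForm N f') (tame_cuspForm N g))]
  refine MeasureTheory.integral_congr_ae (MeasureTheory.ae_of_all _ fun τ => ?_)
  simp only [petersson, FunLike.coe_add, Pi.add_apply, map_add]
  ring

theorem pet_add_right (f g g' : CuspForm (Gamma0 N) 2) :
    pet N ⇑f ⇑(g + g') = pet N ⇑f ⇑g + pet N ⇑f ⇑g' := by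
  simp only [← pet_conj (g := ⇑f), pet_add_left, map_add]

theorem pet_smul_right (c : ℂ) (f g : CuspForm (Gamma0 N) 2) :
    pet N ⇑f ⇑(c • g) = c * pet N ⇑f ⇑g := by
  simp only [← pet_conj (g := ⇑f), FunLike.coe_smul, pet_smul_left, map_mul,
    Complex.conj_conj]

/-- The operators `T_ℓ`, `ℓ ∤ N`. -/
def awayOps (N : ℕ) [NeZero N] : Set (Module.End ℂ (CuspForm (Gamma0 N) 2)) :=
  {T | ∃ (ℓ : ℕ) (hℓ : ℓ.Prime) (hℓN : ¬ ℓ ∣ N), T = CuspForm.heckeTLin 2 hℓ hℓN}

theorem pet_heckeTLin {ℓ : ℕ} (hℓ : ℓ.Prime) (hℓN : ¬ ℓ ∣ N) (f g : CuspForm (Gamma0 N) 2) :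
    pet N ⇑(CuspForm.heckeTLin 2 hℓ hℓN f) ⇑g = pet N ⇑f ⇑(CuspForm.heckeTLin 2 hℓ hℓN g) := by
  have : Fact ℓ.Prime := ⟨hℓ⟩
  rw [CuspForm.coe_heckeTLin_apply, CuspForm.coe_heckeTLin_apply]
  exact pet_heckeT N hℓN f g

theorem commute_awayOps {x y : Module.End ℂ (CuspForm (Gamma0 N) 2)}
    (hx : x ∈ Algebra.adjoin ℂ (awayOps N)) (hy : y ∈ Algebra.adjoin ℂ (awayOps N)) :
    Commute x y := by
  have := Algebra.isMulCommutative_adjoin ℂ (s := awayOps N) (by
    rintro a ⟨ℓ, hℓ, hℓN, rfl⟩ b ⟨m, hm, hmN, rfl⟩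
    exact CuspForm.heckeTLin_comm 2 hℓ hℓN hm hmN)
  exact congrArg Subtype.val (mul_comm' (⟨x, hx⟩ : Algebra.adjoin ℂ (awayOps N)) ⟨y, hy⟩)

/-- The adjoint of an element of the algebra generated by the `T_ℓ` lies in this algebra. -/
theorem exists_adjoint {x : Module.End ℂ (CuspForm (Gamma0 N) 2)}
    (hx : x ∈ Algebra.adjoin ℂ (awayOps N)) :
    ∃ y ∈ Algebra.adjoin ℂ (awayOps N), ∀ f g : CuspForm (Gamma0 N) 2, pet N ⇑(x f) ⇑g = pet N ⇑f ⇑(y g) := by
  induction hx using Algebra.adjoin_induction with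
  | mem T hT =>
    obtain ⟨ℓ, hℓ, hℓN, rfl⟩ := hT
    exact ⟨_, Algebra.subset_adjoin ⟨ℓ, hℓ, hℓN, rfl⟩, pet_heckeTLin hℓ hℓN⟩
  | algebraMap c =>
    refine ⟨algebraMap ℂ _ (conj c), Subalgebra.algebraMap_mem _ _, fun f g => ?_⟩
    simp only [Module.algebraMap_end_apply, pet_smul_right]
    rw [FunLike.coe_smul, pet_smul_left]
  | add a b _ _ iha ihb =>
    obtain ⟨a', ha', hA⟩ := iha
    obtain ⟨b', hb', hB⟩ := ihb
    exact ⟨a' + b', add_mem ha' hb', fun f g => by
      rw [LinearMap.add_apply, LinearMap.add_apply, pet_add_left, pet_add_right, hA, hB]⟩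
  | mul a b _ _ iha ihb =>
    obtain ⟨a', ha', hA⟩ := iha
    obtain ⟨b', hb', hB⟩ := ihb
    exact ⟨b' * a', mul_mem hb' ha', fun f g => by
      rw [Module.End.mul_apply, Module.End.mul_apply, hA, hB]⟩

/-- A nilpotent element of the algebra generated by the `T_ℓ`, `ℓ ∤ N`, is zero. -/
theorem eq_zero_of_isNilpotent {x : Module.End ℂ (CuspForm (Gamma0 N) 2)}
    (hx : x ∈ Algebra.adjoin ℂ (awayOps N)) (hnil : IsNilpotent x) : x = 0 := by
  have sq : ∀ x ∈ Algebra.adjoin ℂ (awayOps N), x * x = 0 → x = 0 := by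
    intro x hx h0
    obtain ⟨y, hy, hadj⟩ := exists_adjoint hx
    have hc : Commute x y := commute_awayOps hx hy
    -- `y * x` is self-adjoint with square zero
    have hsa : ∀ f g : CuspForm (Gamma0 N) 2, pet N ⇑((y * x) f) ⇑g = pet N ⇑f ⇑((y * x) g) := fun f g => by
      rw [Module.End.mul_apply, Module.End.mul_apply, ← hadj f (x g), ← pet_conj ⇑g,
        ← hadj g (x f), pet_conj]
    have h2 : (y * x) * (y * x) = 0 := by
      rw [mul_assoc, ← mul_assoc x y x, hc.eq, mul_assoc y x x, h0, mul_zero, mul_zero]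
    have hz : y * x = 0 := LinearMap.ext fun f => eq_zero_of_pet_self <| by
      rw [hsa, ← Module.End.mul_apply, h2]
      simp [pet, petersson]
    exact LinearMap.ext fun f => eq_zero_of_pet_self <| by
      rw [hadj, ← Module.End.mul_apply, hz]
      simp [pet, petersson]
  obtain ⟨n, hn⟩ := hnil
  induction n using Nat.strong_induction_on with
  | _ n ih =>
    rcases Nat.lt_or_ge n 2 with h | h
    · interval_cases n
      · rw [← mul_one x, ← pow_zero x, hn, mul_zero]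
      · simpa using hn
    · refine ih ((n + 1) / 2) (by omega) (sq _ (pow_mem hx _) ?_)
      rw [← pow_add, show (n + 1) / 2 + (n + 1) / 2 = n + ((n + 1) / 2 * 2 - n) by omega, pow_add,
        hn, zero_mul]

end Fermat.Agent.HeckeSemisimple
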