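import Fermat.Agent.HeckeSemisimple.Cohomology
import Mathlib.Algebra.MvPolynomial.Supported
import Mathlib.RingTheory.IntegralClosure.IsIntegralClosure.Basic

/-!
# `ker aⁿ = ker a` for Hecke polynomials away from the level
-/

set_option autoImplicit false

open CongruenceSubgroup Polynomial

universe uO uA

namespace Fermat.Agent.HeckeSemisimple

open HeckeJ0 HeckeModule

/-- If finitely many operators are killed by monic integral polynomials, squarefree over `ℚ`, then
`a ^ 2 x = 0` implies `a x = 0` for `a` in the algebra they generate. -/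
theorem smul_eq_zero_of_sq_smul {O : Type*} [CommRing O] [IsDomain O] [CharZero O] {R : Type*}
    [CommRing R] [Algebra O R] {M : Type*} [AddCommGroup M] [Module O M] [Module R M]
    [IsScalarTower O R M] [Module.IsTorsionFree O M] {G : Set R} (hG : G.Finite)
    (hq : ∀ g ∈ G, ∃ q : ℤ[X], q.Monic ∧ Squarefree (q.map (Int.castRingHom ℚ)) ∧
      ∀ x : M, aeval g q • x = 0)
    {a : R} (ha : a ∈ Algebra.adjoin O G) {x : M} (hx : a ^ 2 • x = 0) : a • x = 0 := by
  set φ : R →ₐ[O] R ⧸ Module.annihilator R M := Ideal.Quotient.mkₐ O (Module.annihilator R M)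
  have hev : ∀ g ∈ G, ∃ q : ℤ[X], q.Monic ∧ Squarefree (q.map (Int.castRingHom ℚ)) ∧
      aeval (φ g) q = 0 := fun g hg => by
    obtain ⟨q, hm, hsq, h⟩ := hq g hg
    refine ⟨q, hm, hsq, ?_⟩
    rw [show φ g = (φ.restrictScalars ℤ) g from rfl, Polynomial.aeval_algHom_apply]
    exact Ideal.Quotient.eq_zero_iff_mem.mpr (Module.mem_annihilator.mpr h)
  set B := Algebra.adjoin O (φ '' G)
  have hfin : Module.Finite O B := by
    refine Algebra.finite_adjoin_of_finite_of_isIntegral (hG.image φ) ?_
    rintro _ ⟨g, hg, rfl⟩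
    obtain ⟨q, hm, -, h⟩ := hev g hg
    exact IsIntegral.tower_top (A := O) ⟨q, hm, h⟩
  have htf : Module.IsTorsionFree O B := by
    refine Module.isTorsionFree_iff_smul_eq_zero.mpr fun c b hcb => ?_
    rcases eq_or_ne c 0 with hc | hc
    · exact Or.inl hc
    · refine Or.inr (Subtype.ext ?_)
      obtain ⟨r, hr⟩ := Ideal.Quotient.mk_surjective (b : R ⧸ Module.annihilator R M)
      have h0 : Ideal.Quotient.mk (Module.annihilator R M) (c • r) = 0 := by
        have h1 := congrArg Subtype.val hcb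
        rw [Subalgebra.coe_smul, ← hr] at h1
        exact h1
      rw [← hr, Subalgebra.coe_zero, Ideal.Quotient.eq_zero_iff_mem, Module.mem_annihilator]
      intro y
      have h2 := Module.mem_annihilator.mp (Ideal.Quotient.eq_zero_iff_mem.mp h0) y
      rw [smul_assoc] at h2
      exact (smul_eq_zero.mp h2).resolve_left hc
  have hred : IsReduced B := by
    refine isReduced_of_adjoin_int_squarefree (O := O)
      (s := Set.range fun g : G => (⟨φ g, Algebra.subset_adjoin ⟨g, g.2, rfl⟩⟩ : B)) ?_ ?_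
    · refine eq_top_iff.mpr fun b _ => ?_
      have hb : B.val b ∈ (Algebra.adjoin O (Set.range fun g : G =>
          (⟨φ g, Algebra.subset_adjoin ⟨g, g.2, rfl⟩⟩ : B))).map B.val := by
        rw [AlgHom.map_adjoin, ← Set.range_comp,
          show (B.val ∘ fun g : G => (⟨φ g, Algebra.subset_adjoin ⟨g, g.2, rfl⟩⟩ : B))
            = fun g : G => φ g from rfl, ← Set.image_eq_range]
        exact b.2
      obtain ⟨c, hc, hcb⟩ := hb
      rwa [← Subtype.val_injective hcb]
    · rintro _ ⟨⟨g, hg⟩, rfl⟩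
      obtain ⟨q, -, hsq, h⟩ := hev g hg
      refine ⟨q, hsq, Subtype.val_injective ?_⟩
      show (B.val.restrictScalars ℤ) (aeval _ q) = 0
      rw [← Polynomial.aeval_algHom_apply]
      exact h
  have haB : φ a ∈ B := by
    have : φ a ∈ (Algebra.adjoin O G).map φ := ⟨a, ha, rfl⟩
    rwa [AlgHom.map_adjoin] at this
  set b : B := ⟨φ a, haB⟩
  -- `g₀ b = - b² h(b)` with `g₀ ≠ 0`
  obtain ⟨g₀, h, hg₀, hb⟩ : ∃ (g₀ : O) (h : B), g₀ ≠ 0 ∧ g₀ • b = -(h * b ^ 2) := by
    obtain ⟨q, hm, hqb⟩ := Algebra.IsIntegral.isIntegral (R := O) b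
    obtain ⟨g, hg, hndvd⟩ := Polynomial.exists_eq_pow_rootMultiplicity_mul_and_not_dvd q hm.ne_zero 0
    rw [map_zero, sub_zero] at hg hndvd
    refine ⟨g.coeff 0, aeval b g.divX, fun h0 => hndvd (Polynomial.X_dvd_iff.mpr h0), ?_⟩
    have h0 : b * aeval b g = 0 := by
      refine hred.eq_zero _ ⟨q.rootMultiplicity 0 + 1, ?_⟩
      have hq0 : b ^ q.rootMultiplicity 0 * aeval b g = 0 := by
        have : aeval b q = 0 := hqb
        rwa [hg, map_mul, map_pow, aeval_X] at this
      linear_combination (b * (aeval b g) ^ q.rootMultiplicity 0) * hq0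
    have key := congrArg (aeval b) (Polynomial.X_mul_divX_add g)
    rw [map_add, map_mul, aeval_X, aeval_C] at key
    rw [Algebra.smul_def]
    linear_combination h0 + b * key
  obtain ⟨r, hr⟩ := Ideal.Quotient.mk_surjective (h : R ⧸ Module.annihilator R M)
  have hact : Ideal.Quotient.mk (Module.annihilator R M) (g₀ • a + r * a ^ 2) = 0 := by
    have h1 := congrArg Subtype.val hb
    rw [Subalgebra.coe_smul, Subalgebra.coe_neg, Subalgebra.coe_mul, Subalgebra.coe_pow, ← hr] at h1
    rw [map_add, map_mul, map_pow,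
      show Ideal.Quotient.mk (Module.annihilator R M) (g₀ • a) = g₀ • φ a from map_smul φ g₀ a]
    show g₀ • φ a + Ideal.Quotient.mk (Module.annihilator R M) r * φ a ^ 2 = 0
    rw [h1]
    exact neg_add_cancel _
  have h2 := Module.mem_annihilator.mp (Ideal.Quotient.eq_zero_iff_mem.mp hact) x
  rw [add_smul, mul_smul, hx, smul_zero, add_zero, smul_assoc] at h2
  exact (smul_eq_zero.mp h2).resolve_left hg₀

/-- The same for higher powers. -/
theorem smul_eq_zero_of_pow_smul {R : Type*} [CommRing R] {M : Type*} [AddCommGroup M] [Module R M]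
    {a : R} (h2 : ∀ x : M, a ^ 2 • x = 0 → a • x = 0) :
    ∀ (k : ℕ) (x : M), a ^ k • x = 0 → a • x = 0
  | 0, x, h => by rw [← one_smul R x, ← pow_zero a, h, smul_zero]
  | 1, x, h => by rwa [pow_one] at h
  | k + 2, x, h => smul_eq_zero_of_pow_smul h2 (k + 1) x (by
      have h' : a ^ 2 • a ^ k • x = 0 := by rw [smul_smul, ← pow_add, add_comm]; exact h
      rw [pow_succ', mul_smul]
      exact h2 _ h')

variable {N : ℕ} [NeZero N] {O : Type uO} [CommRing O] {A : Type uA} [AddCommGroup A]
  [Module O A] {ρ : Representation O (ZMod N)ˣ A} (hρ : ∀ u, ρ u = 1)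

omit [NeZero N] in
include hρ in
theorem isTorsionFree_coh1 [IsDomain O] [Module.IsTorsionFree O A] :
    Module.IsTorsionFree O (Coh1 ρ) := by
  refine (Module.isTorsionFree_iff_smul_eq_zero).mpr fun c u h => ?_
  obtain ⟨z, rfl⟩ := toCoh_surjective ρ u
  rw [← map_smul, EigenSystems.toCoh_eq_zero_iff_of_trivial hρ] at h
  rcases eq_or_ne c 0 with hc | hc
  · exact Or.inl hc
  · refine Or.inr ?_
    rw [show z = 0 from Subtype.ext (funext fun γ =>
      (smul_eq_zero.mp (congrArg (fun w : Cocycle ρ => w.1 γ) h)).resolve_left hc), map_zero]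

omit [NeZero N] in
include hρ in
theorem isTorsionFree_cohLoc [IsDomain O] [Module.IsTorsionFree O A]
    (P : Submonoid (HeckePoly O)) : Module.IsTorsionFree O (CohLoc P ρ) := by
  have := isTorsionFree_coh1 hρ
  refine (Module.isTorsionFree_iff_smul_eq_zero).mpr fun c x h => ?_
  induction x using LocalizedModule.induction_on with
  | h u s =>
    rw [LocalizedModule.smul'_mk, ← LocalizedModule.zero_mk s, LocalizedModule.mk_eq] at h
    obtain ⟨t, ht⟩ := h
    simp only [Submonoid.smul_def, smul_zero] at ht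
    rw [smul_comm _ c, smul_comm _ c] at ht
    rcases smul_eq_zero.mp ht with h | h
    · exact Or.inl h
    · refine Or.inr ?_
      rw [← LocalizedModule.zero_mk s, LocalizedModule.mk_eq]
      exact ⟨t, by simpa [Submonoid.smul_def] using h⟩

variable {S : Set ℕ} (hS : ∀ q : ℕ, q.Prime → q ∣ N → q ∈ S)

/-- The variables of a polynomial away from `S` generate an algebra containing it. -/
theorem awayIncl_mem_adjoin (a : AwayPoly O S) : awayIncl O S a ∈ Algebra.adjoin O
    ((fun l : AwayIndex S => (MvPolynomial.X (l : Nat.Primes) : HeckePoly O)) '' ↑a.vars) := by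
  have h : awayIncl O S a ∈ (MvPolynomial.supported O (↑a.vars : Set (AwayIndex S))).map
      (awayIncl O S) := ⟨a, MvPolynomial.mem_supported_vars a, rfl⟩
  rw [MvPolynomial.supported_eq_adjoin_X, AlgHom.map_adjoin, Set.image_image] at h
  simpa only [awayIncl_X] using h

include hρ hS in
/-- **`ker (E aᵏ) ⊆ ker (E a)`** on cohomology, `E` an Eisenstein element. -/
theorem eisen_mul_awayIncl_smul_eq_zero [IsDomain O] [CharZero O] [Module.IsTorsionFree O A]
    [Module.IsTorsionFree ℤ A] {r : ℕ} [Fact r.Prime] (hr : (r : ZMod N) = 1) (a : AwayPoly O S)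
    {k : ℕ} {u : Coh1 ρ} (hu : awayIncl O S a ^ k • u = 0) :
    (eisen O r * awayIncl O S a) • u = 0 := by
  have := isTorsionFree_coh1 hρ
  set M : Submodule (HeckePoly O) (Coh1 ρ) :=
    LinearMap.range (LinearMap.lsmul (HeckePoly O) (Coh1 ρ) (eisen O r)) with hM
  have : Module.IsTorsionFree O M :=
    Function.Injective.moduleIsTorsionFree (M.subtype.restrictScalars O) Subtype.val_injective
      fun c y => map_smul (M.subtype.restrictScalars O) c y
  set y : M := ⟨eisen O r • u, u, rfl⟩
  have hy : awayIncl O S a ^ k • y = 0 := Subtype.ext <| by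
    show awayIncl O S a ^ k • eisen O r • u = 0
    rw [smul_comm, hu, smul_zero]
  have key : awayIncl O S a • y = 0 := by
    refine smul_eq_zero_of_pow_smul (fun z hz => ?_) k y hy
    refine smul_eq_zero_of_sq_smul (O := O) ((Finset.finite_toSet a.vars).image _) ?_
      (awayIncl_mem_adjoin a) hz
    rintro _ ⟨l, -, rfl⟩
    have : Fact (l.1 : ℕ).Prime := ⟨l.1.2⟩
    obtain ⟨q, hm, hsq, hq⟩ := exists_squarefree_eisen_smul hρ (ℓ := (l.1 : ℕ))
      (fun h => l.2 (hS _ l.1.2 h))
    refine ⟨q, hm, hsq, ?_⟩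
    rintro ⟨_, w, rfl⟩
    refine Subtype.ext ?_
    show aeval (MvPolynomial.X l.1 : HeckePoly O) q • eisen O r • w = 0
    rw [smul_smul]
    exact hq r hr w
  have := congrArg Subtype.val key
  rw [mul_comm, mul_smul]
  exact this

end Fermat.Agent.HeckeSemisimple
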