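import Mathlib.FieldTheory.IsAlgClosed.Basic
import Mathlib.FieldTheory.Perfect
import Mathlib.Analysis.Complex.Polynomial.Basic

/-!
# From a polynomial in `y` to the polynomial in `x`, `y = x + p / x`
-/

set_option autoImplicit false

open Polynomial

namespace Fermat.Agent.HeckeSemisimple

/-- `x ^ deg f · f(x + p / x)`. -/
noncomputable def unfold {R : Type*} [CommRing R] (p : R) (f : R[X]) : R[X] :=
  ∑ i ∈ Finset.range (f.natDegree + 1),
    C (f.coeff i) * ((X ^ 2 + C p) ^ i * X ^ (f.natDegree - i))

theorem map_unfold {R S : Type*} [CommRing R] [CommRing S] (φ : R →+* S)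
    (hφ : Function.Injective φ) (p : R) (f : R[X]) :
    (unfold p f).map φ = unfold (φ p) (f.map φ) := by
  rw [unfold, unfold, natDegree_map_eq_of_injective hφ, Polynomial.map_sum]
  simp [Polynomial.coeff_map]

/-- Over `ℂ`, the product of the quadratics attached to the roots. -/
theorem unfold_eq_prod (p : ℂ) {f : ℂ[X]} (hf : f.Monic) :
    unfold p f = (f.roots.map fun y => X ^ 2 - C y * X + C p).prod := by
  refine eq_of_infinite_eval_eq _ _ (Set.Infinite.mono ?_
    (Set.Finite.infinite_compl (Set.finite_singleton (0 : ℂ))))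
  intro x hx
  have hx0 : x ≠ 0 := hx
  have hs := (IsAlgClosed.splits f).eq_prod_roots_of_monic hf
  have hdeg : f.natDegree = Multiset.card f.roots := (IsAlgClosed.splits f).natDegree_eq_card_roots
  have hl : (unfold p f).eval x = x ^ f.natDegree * f.eval ((x ^ 2 + p) / x) := by
    rw [eval_eq_sum_range (p := f), Finset.mul_sum, unfold, eval_finsetSum]
    refine Finset.sum_congr rfl fun i hi => ?_
    have hi' : i ≤ f.natDegree := Nat.lt_succ_iff.mp (Finset.mem_range.mp hi)
    simp only [eval_mul, eval_C, eval_pow, eval_add, eval_X]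
    rw [div_pow, ← Nat.sub_add_cancel hi', pow_add, Nat.add_sub_cancel]
    field_simp
  show (unfold p f).eval x = _
  rw [hl, hdeg]
  conv_lhs => enter [2]; rw [hs]
  rw [eval_multiset_prod, eval_multiset_prod, Multiset.map_map, Multiset.map_map,
    ← Multiset.prod_replicate, ← Multiset.map_const', ← Multiset.prod_map_mul]
  refine congrArg Multiset.prod (Multiset.map_congr rfl fun y _ => ?_)
  simp only [Function.comp_apply, eval_sub, eval_add, eval_mul, eval_pow, eval_C, eval_X]
  field_simp
  ring

theorem monic_unfold (p : ℤ) {f : ℤ[X]} (hf : f.Monic) : (unfold p f).Monic := by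
  refine monic_of_injective (f := Int.castRingHom ℂ) Int.cast_injective ?_
  rw [map_unfold _ Int.cast_injective, unfold_eq_prod _ (hf.map _)]
  refine monic_multiset_prod_of_monic _ _ fun y _ => ?_
  monicity!

/-- `(x² - 1) · x ^ deg f · f(x + p / x)` is squarefree when `f` is, and `f` does not vanish at
`±(p + 1)`, `±2√p`. -/
theorem squarefree_mul_unfold {p : ℂ} (hp : p ≠ 0) {f : ℂ[X]} (hf : f.Monic) (hsep : f.Separable)
    (h1 : f.eval (p + 1) ≠ 0) (h2 : f.eval (-(p + 1)) ≠ 0)
    (h3 : ∀ y : ℂ, y ^ 2 = 4 * p → f.eval y ≠ 0) :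
    Squarefree ((X ^ 2 - 1) * unfold p f) := by
  refine Separable.squarefree ?_
  have hroots := nodup_roots hsep
  rw [unfold_eq_prod p hf, show (f.roots.map fun y => X ^ 2 - C y * X + C p).prod
    = ∏ y ∈ (⟨f.roots, hroots⟩ : Finset ℂ), (X ^ 2 - C y * X + C p) from rfl]
  have hmem : ∀ y ∈ (⟨f.roots, hroots⟩ : Finset ℂ), f.eval y = 0 := fun y hy =>
    (mem_roots hf.ne_zero).mp hy
  refine Separable.mul ?_ ?_ ?_
  · rw [separable_def, Polynomial.isCoprime_iff_aeval_ne_zero_of_isAlgClosed ℂ ℂ]
    intro x
    rcases eq_or_ne x 0 with rfl | hx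
    · left; simp
    · right; simpa using hx
  · refine separable_prod' (fun y hy z hz hyz => ?_) fun y hy => ?_
    · rw [Polynomial.isCoprime_iff_aeval_ne_zero_of_isAlgClosed ℂ ℂ]
      intro x
      by_contra h
      push Not at h
      obtain ⟨ha, hb⟩ := h
      simp only [map_add, map_sub, map_mul, map_pow, aeval_X, aeval_C, Algebra.algebraMap_self,
        RingHom.id_apply] at ha hb
      have : (z - y) * x = 0 := by linear_combination ha - hb
      rcases mul_eq_zero.mp this with h | h
      · exact hyz (sub_eq_zero.mp h).symm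
      · exact hp (by rw [h] at ha; simpa using ha)
    · rw [separable_def, Polynomial.isCoprime_iff_aeval_ne_zero_of_isAlgClosed ℂ ℂ]
      intro x
      by_contra h
      push Not at h
      obtain ⟨ha, hb⟩ := h
      simp at ha hb
      refine h3 y ?_ (hmem y hy)
      linear_combination -4 * ha + (2 * x - y) * hb
  · refine IsCoprime.prod_right fun y hy => ?_
    rw [Polynomial.isCoprime_iff_aeval_ne_zero_of_isAlgClosed ℂ ℂ]
    intro x
    by_contra h
    push Not at h
    obtain ⟨ha, hb⟩ := h
    simp at ha hb
    have hx : x ^ 2 = 1 := by linear_combination ha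
    rcases (sq_eq_one_iff.mp hx) with rfl | rfl
    · refine h1 ?_
      rw [show p + 1 = y by linear_combination hb]
      exact hmem y hy
    · refine h2 ?_
      rw [show -(p + 1) = y by linear_combination -hb]
      exact hmem y hy

/-- If `U² w + p w = U (res (T a))` then unfolded polynomials in `U` act on `res` through `T`. -/
theorem aeval_unfold_apply {O X Y : Type*} [CommRing O] [AddCommGroup X] [Module O X]
    [AddCommGroup Y] [Module O Y] (p : ℤ) (U : Module.End O Y) (T : Module.End O X)
    (res : X →ₗ[O] Y) (h : ∀ a, U (U (res a)) + p • res a = U (res (T a))) (f : ℤ[X]) (a : X) :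
    aeval U (unfold p f) (res a) = (U ^ f.natDegree) (res (aeval T f a)) := by
  have hi : ∀ (i : ℕ) (a : X), ((U ^ 2 + algebraMap ℤ (Module.End O Y) p) ^ i : Module.End O Y) (res a)
      = (U ^ i) (res ((T ^ i) a)) := by
    intro i
    induction i with
    | zero => intro a; rfl
    | succ i ih =>
      intro a
      rw [pow_succ, Module.End.mul_apply, LinearMap.add_apply, pow_two, Module.End.mul_apply,
        Module.algebraMap_end_apply, h]
      have hc : Commute ((U ^ 2 + algebraMap ℤ _ p) ^ i) U :=
        (((Commute.refl U).pow_left 2).add_left (Algebra.commute_algebraMap_left p U)).pow_left i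
      rw [← pow_two, ← Module.End.mul_apply, hc.eq, Module.End.mul_apply, ih, ← Module.End.mul_apply,
        ← pow_succ', pow_succ T, Module.End.mul_apply]
  conv_rhs => rw [aeval_eq_sum_range, LinearMap.sum_apply, map_sum, map_sum]
  rw [unfold, map_sum, LinearMap.sum_apply]
  refine Finset.sum_congr rfl fun i hi' => ?_
  have hle : i ≤ f.natDegree := Nat.lt_succ_iff.mp (Finset.mem_range.mp hi')
  simp only [map_mul, map_pow, map_add, aeval_C, aeval_X, LinearMap.smul_apply, map_zsmul,
    Module.End.mul_apply, Module.algebraMap_end_apply]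
  have hc : Commute ((U ^ 2 + algebraMap ℤ _ p) ^ i) (U ^ (f.natDegree - i)) :=
    (((Commute.refl U).pow_left 2).add_left (Algebra.commute_algebraMap_left p U)).pow_pow i _
  rw [← Module.End.mul_apply ((U ^ 2 + _) ^ i), hc.eq, Module.End.mul_apply, hi,
    ← Module.End.mul_apply, ← pow_add, Nat.sub_add_cancel hle]

end Fermat.Agent.HeckeSemisimple
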