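import Fermat.Agent.HeckeSemisimple.Bound
import Fermat.Agent.HeckeSemisimple.Unfold
import Fermat.Agent.HeckeSemisimple.Elementwise
import Fermat.Agent.TwoAdic.Modules.TWRelations
import Fermat.Agent.TwoAdic.Modules.TWLevel
import Mathlib.RingTheory.Polynomial.Eisenstein.Basic

/-!
# `U_q` is semisimple at level `q N` away from `U_q² = q`

`(U_q² - 1) u` is old and on old classes `U_q² - T_q U_q + q = 0`.  An annihilator of `T_q` at level
`N`, squarefree and not vanishing at `±(q + 1)`, unfolds to one of `U_q`.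
-/

set_option autoImplicit false

open CongruenceSubgroup Polynomial


namespace Fermat.Agent.HeckeSemisimple

open HeckeJ0 HeckeModule TwoAdic

variable {N : ℕ} [NeZero N]

/-- An annihilator of `T_p` on forms with the properties needed at level `p N`. -/
theorem exists_annihilator {p : ℕ} (hp : p.Prime) (hpN : ¬ p ∣ N) :
    ∃ f : ℤ[X], f.Monic ∧ Squarefree (f.map (Int.castRingHom ℚ)) ∧
      f.eval ((p : ℤ) + 1) ≠ 0 ∧ f.eval (-((p : ℤ) + 1)) ≠ 0 ∧
      (∀ y : ℂ, y ^ 2 = 4 * p → (f.map (Int.castRingHom ℂ)).eval y ≠ 0) ∧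
      aeval (CuspForm.heckeTLin 2 hp hpN : Module.End ℂ (CuspForm (Gamma0 N) 2))
        (f * (X ^ 2 - C (4 * (p : ℤ)))) = 0 := by
  have : Fact p.Prime := ⟨hp⟩
  set T : Module.End ℂ (CuspForm (Gamma0 N) 2) := CuspForm.heckeTLin 2 hp hpN with hT
  -- remove a linear factor which is invertible on forms
  have strip : ∀ (c : ℤ), (p : ℤ) + 1 ≤ |c| → ∀ q : ℤ[X], q.Monic →
      Squarefree (q.map (Int.castRingHom ℚ)) → aeval T q = 0 →
      ∃ q' : ℤ[X], q'.Monic ∧ Squarefree (q'.map (Int.castRingHom ℚ)) ∧ aeval T q' = 0 ∧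
        q'.eval c ≠ 0 ∧ q' ∣ q := by
    intro c hc q hm hsq h0
    by_cases hcq : q.eval c = 0
    · obtain ⟨q', rfl⟩ := dvd_iff_isRoot.mpr hcq
      have hm' : q'.Monic := (monic_X_sub_C c).of_mul_monic_left hm
      rw [Polynomial.map_mul] at hsq
      refine ⟨q', hm', Squarefree.of_mul_right hsq, ?_, fun h' => ?_, dvd_mul_left _ _⟩
      · refine LinearMap.ext fun g => ?_
        have h1 : aeval T (Polynomial.X - Polynomial.C c) (aeval T q' g) = 0 := by
          rw [← Module.End.mul_apply, ← map_mul, h0]; rfl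
        rw [map_sub, aeval_X, aeval_C, LinearMap.sub_apply, Module.algebraMap_end_apply,
          sub_eq_zero, ← Int.cast_smul_eq_zsmul ℂ] at h1
        refine eq_zero_of_heckeT_eigen (p := p) _ (c := (c : ℂ)) ?_ ?_
        · rw [Complex.norm_intCast]
          exact_mod_cast hc
        · rw [← CuspForm.coe_heckeTLin_apply 2 hp hpN, ← hT, h1, FunLike.coe_smul]
      · obtain ⟨r, rfl⟩ := dvd_iff_isRoot.mpr h'
        rw [Polynomial.map_mul, ← mul_assoc] at hsq
        exact not_isUnit_of_natDegree_pos _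
          (by rw [Polynomial.map_sub, map_X, map_C, natDegree_X_sub_C]; norm_num)
          (Squarefree.of_mul_left hsq _ dvd_rfl)
    · exact ⟨q, hm, hsq, h0, hcq, dvd_rfl⟩
  obtain ⟨q, hm, hsq, h0⟩ := exists_squarefree_int (N := N) hp hpN
  obtain ⟨q₁, hm₁, hsq₁, h₁, he₁, -⟩ := strip ((p : ℤ) + 1) (le_abs_self _) q hm hsq h0
  obtain ⟨q₂, hm₂, hsq₂, h₂, he₂, hd₂⟩ := strip (-((p : ℤ) + 1)) (by rw [abs_neg]; exact le_abs_self _) q₁ hm₁ hsq₁ h₁
  have he₁' : q₂.eval ((p : ℤ) + 1) ≠ 0 := fun h => by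
    obtain ⟨r, hr⟩ := hd₂
    exact he₁ (by rw [hr, eval_mul, h, zero_mul])
  set D : ℤ[X] := X ^ 2 - C (4 * (p : ℤ)) with hD
  have hDm : D.Monic := monic_X_pow_sub_C _ two_ne_zero
  have hdvd : ∀ (f : ℤ[X]) (y : ℂ), y ^ 2 = 4 * p →
      (f.map (Int.castRingHom ℂ)).eval y = 0 → D ∣ f := by
    intro f y hy hfy
    have hirr : Irreducible (X ^ 2 - C (4 * (p : ℚ)) : ℚ[X]) := by
      rw [irreducible_iff_roots_eq_zero_of_degree_le_three (by rw [natDegree_X_pow_sub_C])
        (by rw [natDegree_X_pow_sub_C]; norm_num), Multiset.eq_zero_iff_forall_notMem]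
      intro r hr
      rw [mem_roots', IsRoot, eval_sub, eval_pow, eval_X, eval_C, sub_eq_zero] at hr
      have hsquare : IsSquare ((4 * p : ℕ) : ℚ) := ⟨r, by push_cast; rw [← hr.2, pow_two]⟩
      rw [Rat.isSquare_natCast_iff] at hsquare
      obtain ⟨a, ha⟩ := hsquare
      obtain ⟨b, rfl⟩ : 2 ∣ a := by
        have : 2 ∣ a * a := ⟨2 * p, by rw [← ha]; ring⟩
        exact (Nat.prime_two.dvd_mul.mp this).elim id id
      have hpb : p = b * b := by nlinarith
      exact hp.not_isSquare ⟨b, hpb⟩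
    have hmin : minpoly ℚ y = X ^ 2 - C (4 * (p : ℚ)) :=
      (minpoly.eq_of_irreducible_of_monic hirr (by simp [hy]) (monic_X_pow_sub_C _ two_ne_zero)).symm
    have h1 : (X ^ 2 - C (4 * (p : ℚ)) : ℚ[X]) ∣ f.map (Int.castRingHom ℚ) := by
      rw [← hmin]
      refine minpoly.dvd ℚ y ?_
      rw [aeval_def, eval₂_eq_eval_map, Polynomial.map_map,
        RingHom.ext_int ((algebraMap ℚ ℂ).comp (Int.castRingHom ℚ)) (Int.castRingHom ℂ)]
      exact hfy
    rw [← Polynomial.map_dvd_map (Int.castRingHom ℚ) Int.cast_injective hDm]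
    have e : D.map (Int.castRingHom ℚ) = X ^ 2 - Polynomial.C (4 * (p : ℚ)) := by
      rw [hD, Polynomial.map_sub, Polynomial.map_pow, map_X, Polynomial.map_C]
      congr 2
      simp
    rw [e]
    exact h1
  by_cases hDq : D ∣ q₂
  · obtain ⟨f, hf⟩ := hDq
    have hfm : f.Monic := hDm.of_mul_monic_left (hf ▸ hm₂)
    rw [hf, Polynomial.map_mul] at hsq₂
    refine ⟨f, hfm, Squarefree.of_mul_right hsq₂, fun h => he₁' ?_, fun h => he₂ ?_,
      fun y hy hfy => ?_, ?_⟩
    · rw [hf, eval_mul, h, mul_zero]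
    · rw [hf, eval_mul, h, mul_zero]
    · obtain ⟨r, rfl⟩ := hdvd f y hy hfy
      rw [Polynomial.map_mul, ← mul_assoc] at hsq₂
      exact not_isUnit_of_natDegree_pos _ (by rw [Polynomial.natDegree_map_eq_of_injective Int.cast_injective, hD, natDegree_X_pow_sub_C]; exact two_pos)
        (Squarefree.of_mul_left hsq₂ _ dvd_rfl)
    · rw [mul_comm, ← hf, h₂]
  · exact ⟨q₂, hm₂, hsq₂, he₁', he₂, fun y hy h => hDq (hdvd q₂ y hy h),
      by rw [map_mul, h₂, zero_mul]⟩

variable {q : ℕ} [hq : Fact q.Prime] {O : Type} [CommRing O] {A : Type} [AddCommGroup A]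
  [Module O A] [Module.IsTorsionFree ℤ A]

/-- A polynomial for `U_q` at level `q N`. -/
theorem exists_squarefree_atkin (hqN : ¬ q ∣ N) :
    ∃ f : ℤ[X], f.Monic ∧ Squarefree (f.map (Int.castRingHom ℚ)) ∧
      ∀ {ρ : Representation O (ZMod (q * N))ˣ A}, (∀ u, ρ u = 1) → ∀ (r : ℕ) [Fact r.Prime],
        (r : ZMod (q * N)) = 1 → ∀ u : Coh1 ρ,
          (aeval (MvPolynomial.X (qIdx q) : HeckePoly O) (f * (X ^ 2 - C (q : ℤ)) ^ 2) *
            eisen O r) • u = 0 := by
  obtain ⟨f, hm, hsq, he1, he2, he3, hf⟩ := exists_annihilator (N := N) hq.out hqN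
  refine ⟨(X ^ 2 - 1) * unfold (q : ℤ) f, ?_, ?_, ?_⟩
  · exact Monic.mul (by monicity!) (monic_unfold _ hm)
  · rw [← PerfectField.separable_iff_squarefree, ← separable_map (algebraMap ℚ ℂ), Polynomial.map_map,
      RingHom.ext_int ((algebraMap ℚ ℂ).comp (Int.castRingHom ℚ)) (Int.castRingHom ℂ),
      Polynomial.map_mul, map_unfold _ Int.cast_injective, PerfectField.separable_iff_squarefree]
    have hs : ((Polynomial.X ^ 2 - 1 : ℤ[X]).map (Int.castRingHom ℂ)) = X ^ 2 - 1 := by simp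
    rw [hs, eq_intCast, Int.cast_natCast]
    refine squarefree_mul_unfold (Nat.cast_ne_zero.mpr hq.out.ne_zero) (hm.map _) ?_ ?_ ?_ he3
    · rw [← RingHom.ext_int ((algebraMap ℚ ℂ).comp (Int.castRingHom ℚ)) (Int.castRingHom ℂ),
        ← Polynomial.map_map, separable_map, PerfectField.separable_iff_squarefree]
      exact hsq
    · rw [show ((q : ℂ) + 1) = (Int.castRingHom ℂ) ((q : ℤ) + 1) by simp, eval_map_apply]
      simpa using he1
    · rw [show -((q : ℂ) + 1) = (Int.castRingHom ℂ) (-((q : ℤ) + 1)) by simp, eval_map_apply]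
      exact fun h => he2 (Int.cast_injective (h.trans Int.cast_zero.symm))
  intro ρ hρ
  -- work with the trivial character
  obtain rfl : ρ = scalarRep (levelChar (one_dvd (q * N)) (1 : (ZMod 1)ˣ →* O)) A := by
    refine MonoidHom.ext fun v => LinearMap.ext fun a => ?_
    rw [hρ v]
    exact (one_smul O a).symm
  intro r _ hr u
  have hM : 1 ∣ N := one_dvd N
  have hMq : 1 ∣ q * N := one_dvd (q * N)
  have hr' : (r : ZMod N) = 1 := by
    have := congrArg (ZMod.castHom (dvd_mul_left N q) (ZMod N)) hr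
    rwa [map_natCast, map_one] at this
  have hrq : r ∉ ({q} : Set ℕ) := fun h => by
    rw [Set.mem_singleton_iff] at h
    subst h
    have h1 := congrArg (ZMod.castHom (dvd_mul_right r N) (ZMod r)) hr
    rw [map_natCast, map_one, ZMod.natCast_self] at h1
    exact zero_ne_one h1
  set U : Module.End O (Coh1 (scalarRep (levelChar hMq (1 : (ZMod 1)ˣ →* O)) A)) := heckeOp _ q with hU
  set res := resSelf A hM hMq (1 : (ZMod 1)ˣ →* O) with hres
  -- `(U² + q) res a = U res (T a)`
  have hrel : ∀ a, U (U (res a)) + (q : ℤ) • res a = U (res (heckeOp _ q a)) := fun a => by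
    have h := heckeOp_wSelf_resSelf hqN hM hMq (1 : (ZMod 1)ˣ →* O) rfl a
    have h' := congrArg (U ·) (heckeOp_resSelf hqN hM hMq (1 : (ZMod 1)ˣ →* O) rfl a)
    simp only [map_sub, ← hU, ← hres] at h h'
    rw [h', h, ← Int.cast_smul_eq_zsmul O, Int.cast_natCast, sub_add_cancel]
  have hkill : ∀ a : Coh1 (scalarRep (levelChar hM (1 : (ZMod 1)ˣ →* O)) A),
      aeval U (unfold (q : ℤ) f * (X ^ 2 - C (q : ℤ)) ^ 2) (eisen O r • res a) = 0 := by
    intro a
    have hE : eisen O r • res a = res (eisen O r • a) := by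
      rw [eisen_smul, eisen_smul, map_sub, map_smul, hres,
        ← resSelf_heckeOp hM hMq (1 : (ZMod 1)ˣ →* O) (Set.mem_singleton q) hrq]
    have hD : aeval U ((X ^ 2 - C (q : ℤ)) ^ 2) (res (eisen O r • a))
        = (U ^ 2) (res (aeval (heckeOp (scalarRep (levelChar hM (1 : (ZMod 1)ˣ →* O)) A) q) (X ^ 2 - C (4 * (q : ℤ)))
            (eisen O r • a))) := by
      set b := eisen O r • a
      set T := heckeOp (scalarRep (levelChar hM (1 : (ZMod 1)ˣ →* O)) A) q with hT
      have e1 : U (U (res b)) = U (res (T b)) - (q : ℤ) • res b := eq_sub_of_add_eq (hrel b)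
      have e2 : U (U (res (T b))) = U (res (T (T b))) - (q : ℤ) • res (T b) :=
        eq_sub_of_add_eq (hrel (T b))
      simp only [pow_two, map_mul, map_sub, aeval_X, aeval_C, Module.End.mul_apply,
        LinearMap.sub_apply, Module.algebraMap_end_apply, map_zsmul]
      simp only [e1, map_sub, map_zsmul, e2]
      module
    rw [hE, map_mul, Module.End.mul_apply, hD,
      ← Module.End.mul_apply (aeval U (unfold (q : ℤ) f)),
      ((Commute.refl U).pow_right 2 |> fun h => (show Commute (aeval U (unfold (q : ℤ) f)) (U ^ 2) by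
        rw [← aeval_X_pow (R := ℤ) U]; exact (Commute.all _ _).map (aeval U))).eq,
      Module.End.mul_apply, aeval_unfold_apply (q : ℤ) U _ res hrel]
    rw [← Module.End.mul_apply (aeval (heckeOp (scalarRep (levelChar hM (1 : (ZMod 1)ˣ →* O)) A) q) f), ← map_mul,
      aeval_eisen_smul_eq_zero (fun v => LinearMap.ext fun a => one_smul O a) hqN hf hr' a,
      map_zero, map_zero, map_zero]
  -- `(U² - 1) u` is old
  have hold : eisen O r • (U (U u) - u) = U (eisen O r • res (charTraceTwist A hM (1 : (ZMod 1)ˣ →* O) hqN hMq u))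
      - eisen O r • res (charTrace A hM (1 : (ZMod 1)ˣ →* O) hqN hMq u) := by
    rw [hU, heckeOp_sq_sub hqN hM hMq (1 : (ZMod 1)ˣ →* O) rfl u, smul_sub, ← X_smul, ← X_smul, smul_comm]
  set G : ℤ[X] := unfold (q : ℤ) f * (X ^ 2 - C (q : ℤ)) ^ 2 with hG
  have hUpoly : ∀ (g : ℤ[X]) (v : Coh1 (scalarRep (levelChar hMq (1 : (ZMod 1)ˣ →* O)) A)),
      aeval (MvPolynomial.X (qIdx q) : HeckePoly O) g • v = aeval U g v := fun g v => by
    have e := Polynomial.aeval_algHom_apply ((heckeHom (scalarRep (levelChar hMq (1 : (ZMod 1)ˣ →* O)) A)).restrictScalars ℤ)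
      (MvPolynomial.X (qIdx q)) g
    have hX : ((heckeHom (scalarRep (levelChar hMq (1 : (ZMod 1)ˣ →* O)) A)).restrictScalars ℤ)
        (MvPolynomial.X (qIdx q)) = U := heckeHom_X _ (qIdx q)
    exact DFunLike.congr_fun (e.symm.trans
      (congrArg (fun T : Module.End O (Coh1 (scalarRep (levelChar hMq (1 : (ZMod 1)ˣ →* O)) A)) => aeval T g) hX)) v
  rw [mul_assoc, ← hG, mul_comm (X ^ 2 - 1) G, map_mul, mul_assoc, mul_comm _ (eisen O r), mul_smul,
    mul_smul, hUpoly, hUpoly]
  have h1 : aeval U (X ^ 2 - 1 : ℤ[X]) u = U (U u) - u := by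
    simp [pow_two]
  rw [h1, hold, map_sub, hkill, sub_zero]
  have hcomm : aeval U G * U = U * aeval U G := by
    have := congrArg (aeval U) (mul_comm G Polynomial.X)
    simpa only [map_mul, aeval_X] using this
  rw [← Module.End.mul_apply, hcomm, Module.End.mul_apply, hkill, map_zero]

/-- **`ker aᵏ = ker a`** at level `q N` for polynomials in the operators away from `S`, which may
contain `U_q`, on a localisation inverting `U_q² - q`. -/
theorem awayIncl_smul_eq_zero_atkin [IsDomain O] [CharZero O] [Module.IsTorsionFree O A]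
    (hqN : ¬ q ∣ N) {ρ : Representation O (ZMod (q * N))ˣ A} (hρ : ∀ u, ρ u = 1) {S : Set ℕ}
    (hS : ∀ l : ℕ, l.Prime → l ∣ q * N → l ≠ q → l ∈ S) (P : Submonoid (HeckePoly O))
    (hP : NonEisenstein (q * N) P)
    (hU : MvPolynomial.X (qIdx q) ^ 2 - MvPolynomial.C (q : O) ∈ P)
    (a : AwayPoly O S) {k : ℕ} {x : CohLoc P ρ} (hx : awayIncl O S a ^ k • x = 0) :
    awayIncl O S a • x = 0 := by
  have : NeZero (q * N) := ⟨mul_ne_zero hq.out.ne_zero (NeZero.ne N)⟩
  have := isTorsionFree_cohLoc hρ P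
  refine smul_eq_zero_of_pow_smul (fun y hy => ?_) k x hx
  refine smul_eq_zero_of_sq_smul (O := O) ((Finset.finite_toSet a.vars).image _) ?_
    (awayIncl_mem_adjoin a) hy
  rintro _ ⟨l, -, rfl⟩
  have : Fact (l.1 : ℕ).Prime := ⟨l.1.2⟩
  by_cases hl : (l.1 : ℕ) = q
  · obtain ⟨f, hm, hsq, hf⟩ := exists_squarefree_atkin (O := O) (A := A) (N := N) hqN
    have hlq : (l : Nat.Primes) = qIdx q := Subtype.ext hl
    refine ⟨f, hm, hsq, fun z => ?_⟩
    show aeval (MvPolynomial.X (l : Nat.Primes) : HeckePoly O) f • z = 0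
    rw [hlq]
    obtain ⟨r, hr, hr1, hmem⟩ := hP
    have : Fact r.Prime := ⟨hr⟩
    induction z using LocalizedModule.induction_on with
    | h u s =>
      rw [LocalizedModule.smul'_mk]
      refine (LocalizedModule.mk_eq (S := P)).mpr
        ⟨⟨_, mul_mem (mul_mem hmem hU) hU⟩, ?_⟩ |>.trans (LocalizedModule.zero_mk s)
      simp only [Submonoid.smul_def, smul_zero]
      rw [smul_smul, smul_smul]
      have e : aeval (MvPolynomial.X (qIdx q) : HeckePoly O) (f * (X ^ 2 - C (q : ℤ)) ^ 2) =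
          aeval (MvPolynomial.X (qIdx q) : HeckePoly O) f *
            (MvPolynomial.X (qIdx q) ^ 2 - MvPolynomial.C (q : O)) ^ 2 := by
        simp [map_mul, map_sub, map_pow]
      refine (congrArg (· • u) (by rw [e]; ring : _ = (s : HeckePoly O) *
        (aeval (MvPolynomial.X (qIdx q) : HeckePoly O) (f * (X ^ 2 - C (q : ℤ)) ^ 2) *
          eisen O r))).trans ?_
      rw [mul_smul, hf hρ r hr1, smul_zero]
  · exact exists_squarefree_cohLoc hρ P hP fun h => l.2 (hS _ l.1.2 h hl)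

end Fermat.Agent.HeckeSemisimple
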