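import Mathlib.Analysis.Complex.UpperHalfPlane.Measure
import Mathlib.Analysis.SpecialFunctions.ImproperIntegrals
import Mathlib.MeasureTheory.Measure.Haar.NormedSpace
import Mathlib.NumberTheory.Modular
import Mathlib.GroupTheory.Index
import Mathlib.NumberTheory.ModularForms.CongruenceSubgroups

/-!
# A weight of total mass one along the orbits of a subgroup of finite index of `SL₂(ℤ)`

For a subgroup `H` of finite index of `SL(2, ℤ)` we build `weight H : ℍ → ℝ`, bounded, of finite
integral for `dx dy / y²`, with `∑' γ : H, weight H (γ • τ) = 1` for almost every `τ`.  Integrals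
over `H \ ℍ` are then integrals against this weight.
-/

set_option autoImplicit false

noncomputable section

open MeasureTheory UpperHalfPlane ModularGroup Set Filter
open scoped MatrixGroups ENNReal NNReal Topology Modular

namespace Fermat.Agent.HeckeSemisimple

instance : Countable SL(2, ℤ) :=
  Function.Injective.countable (f := fun g : SL(2, ℤ) => fun i j => g.1 i j) fun _ _ h =>
    Subtype.ext (Matrix.ext fun i j => congrFun (congrFun h i) j)

theorem measurePreserving_glSmul (g : GL (Fin 2) ℝ) :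
    MeasurePreserving (g • · : ℍ → ℍ) volume volume :=
  measurePreserving_smul g volume

theorem measurableEmbedding_glSmul (g : GL (Fin 2) ℝ) :
    MeasurableEmbedding (g • · : ℍ → ℍ) :=
  (MeasurableEquiv.smul g).measurableEmbedding

instance : Measure.IsOpenPosMeasure (volume : Measure ℍ) := by
  refine ⟨fun U hU hne h0 => ?_⟩
  have hac : (volume.comap UpperHalfPlane.coe) ≪ (volume : Measure ℍ) := by
    rw [UpperHalfPlane.volume_def]
    refine withDensity_absolutelyContinuous' ?_ (ae_of_all _ fun z => ?_)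
    · refine (Measurable.coe_nnreal_ennreal ?_).aemeasurable
      refine Measurable.pow_const (Measurable.const_div ?_ _) _
      exact (UpperHalfPlane.continuous_im.subtype_mk _).measurable
    · simp only [ne_eq, ENNReal.coe_eq_zero, pow_eq_zero_iff two_ne_zero, one_div, inv_eq_zero]
      exact fun h => z.im_ne_zero (congrArg NNReal.toReal h)
  have h1 := hac h0
  rw [measurableEmbedding_coe.comap_apply] at h1
  exact (isOpenEmbedding_coe.isOpenMap U hU).measure_ne_zero volume (hne.image _) h1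

theorem volume_eq_zero_of_image_coe {s : Set ℍ} (h : volume (UpperHalfPlane.coe '' s) = 0) :
    volume s = 0 := by
  rw [UpperHalfPlane.volume_eq_lintegral]
  exact setLIntegral_measure_zero _ _ h

/-- The part of the fundamental domain outside its interior is null. -/
theorem volume_fd_diff_fdo : volume (𝒟 \ 𝒟ᵒ : Set ℍ) = 0 := by
  refine volume_eq_zero_of_image_coe (measure_mono_null
    (t := Metric.sphere (0 : ℂ) 1 ∪ (Complex.re ⁻¹' {1 / 2} ∪ Complex.re ⁻¹' {-(1 / 2)})) ?_ ?_)
  · rintro _ ⟨z, ⟨⟨h1, h2⟩, h3⟩, rfl⟩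
    by_cases hn : 1 = Complex.normSq z
    · left
      rw [Metric.mem_sphere, dist_zero_right, Complex.norm_def, ← hn, Real.sqrt_one]
    · right
      have h4 : ¬ |z.re| < 1 / 2 := fun h => h3 ⟨lt_of_le_of_ne h1 hn, h⟩
      rcases abs_eq (by norm_num : (0 : ℝ) ≤ 1 / 2) |>.mp (le_antisymm h2 (not_lt.mp h4)) with
        h | h
      · exact Or.inl h
      · exact Or.inr h
  · refine measure_union_null (Measure.addHaar_sphere volume 0 1) (measure_union_null ?_ ?_)
    all_goals
      rw [← Complex.volume_preserving_equiv_real_prod.symm.measure_preimage_equiv]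
      refine measure_mono_null (t := {_} ×ˢ univ) (fun x hx => ⟨hx, trivial⟩) ?_
      rw [Measure.volume_eq_prod, Measure.prod_prod, Real.volume_singleton, zero_mul]

theorem volume_fdo_lt_top : volume (𝒟ᵒ : Set ℍ) < ∞ := by
  rw [UpperHalfPlane.volume_eq_lintegral]
  set F : ℂ → ℝ≥0∞ := fun z => ↑((1 / ‖z.im‖₊) ^ 2 : ℝ≥0)
  set G : ℝ → ℝ≥0∞ := fun y => ↑((1 / ‖y‖₊) ^ 2 : ℝ≥0)
  have hsub : UpperHalfPlane.coe '' 𝒟ᵒ ⊆
      Complex.measurableEquivRealProd ⁻¹' (Icc (-(1 / 2)) (1 / 2) ×ˢ Ioi (1 / 2)) := by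
    rintro _ ⟨z, hz, rfl⟩
    have h1 := hz.2
    have h2 := three_lt_four_mul_im_sq_of_mem_fdo hz
    refine ⟨abs_le.mp h1.le, ?_⟩
    show (1 / 2 : ℝ) < z.im
    nlinarith [z.im_pos]
  refine lt_of_le_of_lt (lintegral_mono_set hsub) ?_
  have hF : F = fun z => G (Complex.measurableEquivRealProd z).2 := rfl
  change ∫⁻ z in _, F z < ∞
  rw [hF, Complex.volume_preserving_equiv_real_prod.setLIntegral_comp_preimage_emb
    Complex.measurableEquivRealProd.measurableEmbedding (fun x => G x.2),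
    Measure.volume_eq_prod, ← Measure.prod_restrict,
    lintegral_prod _ (by fun_prop)]
  simp only [lintegral_const]
  refine ENNReal.mul_lt_top ?_ (by simp)
  have hint : IntegrableOn (fun y : ℝ => y ^ (-2 : ℝ)) (Ioi (1 / 2)) :=
    integrableOn_Ioi_rpow_of_lt (by norm_num) (by norm_num)
  refine lt_of_le_of_lt (le_of_eq (setLIntegral_congr_fun measurableSet_Ioi fun y hy => ?_))
    hint.hasFiniteIntegral
  have hy0 : 0 < y := lt_trans (by norm_num) (Set.mem_Ioi.mp hy)
  show G y = ‖y ^ (-2 : ℝ)‖ₑ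
  rw [enorm_eq_nnnorm]
  simp only [G, ENNReal.coe_inj]
  ext
  rw [NNReal.coe_pow, NNReal.coe_div, coe_nnnorm, coe_nnnorm, Real.norm_eq_abs, abs_of_pos hy0,
    Real.norm_eq_abs, abs_of_pos (Real.rpow_pos_of_pos hy0 _), Real.rpow_neg hy0.le]
  norm_num

/-- Almost every orbit of `SL(2, ℤ)` avoids the boundary of the fundamental domain. -/
theorem ae_forall_notMem_boundary :
    ∀ᵐ τ : ℍ, ∀ g : SL(2, ℤ), g • τ ∉ (𝒟 \ 𝒟ᵒ : Set ℍ) := by
  rw [ae_all_iff]
  intro g
  exact compl_mem_ae_iff.mpr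
    ((measurePreserving_glSmul (g : GL (Fin 2) ℝ)).quasiMeasurePreserving.preimage_null
      volume_fd_diff_fdo)

/-- The indicator of the open fundamental domain. -/
def fdoInd : ℍ → ℝ := Set.indicator (𝒟ᵒ : Set ℍ) 1

theorem measurable_fdoInd : Measurable fdoInd :=
  measurable_one.indicator isOpen_fdo.measurableSet

theorem fdoInd_nonneg (τ : ℍ) : 0 ≤ fdoInd τ := Set.indicator_nonneg (fun _ _ => zero_le_one) τ

theorem integrable_fdoInd : Integrable fdoInd :=
  (integrableOn_const volume_fdo_lt_top.ne).integrable_indicator isOpen_fdo.measurableSet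

theorem hasSum_fdoInd {τ : ℍ} (h : ∀ g : SL(2, ℤ), g • τ ∉ (𝒟 \ 𝒟ᵒ : Set ℍ)) :
    HasSum (fun g : SL(2, ℤ) => fdoInd (g • τ)) 2 := by
  obtain ⟨g₀, hg₀⟩ := exists_smul_mem_fd τ
  have hg₀' : g₀ • τ ∈ 𝒟ᵒ := by
    by_contra hc
    exact h g₀ ⟨hg₀, hc⟩
  have hneg : ((-g₀) • τ : ℍ) = g₀ • τ := ModularGroup.SL_neg_smul g₀ τ
  have hne : g₀ ≠ -g₀ := by
    intro he
    have h1 : ((g₀ : Matrix (Fin 2) (Fin 2) ℤ)) = -(g₀ : Matrix (Fin 2) (Fin 2) ℤ) :=
      congrArg Subtype.val he
    have h2 := g₀.det_coe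
    have h00 := congrFun (congrFun h1 0) 0
    have h10 := congrFun (congrFun h1 1) 0
    simp only [Matrix.neg_apply] at h00 h10
    rw [Matrix.det_fin_two] at h2
    have e0 : g₀ 0 0 = 0 := by omega
    have e1 : g₀ 1 0 = 0 := by omega
    rw [e0, e1] at h2
    simp at h2
  have key : HasSum (fun g : SL(2, ℤ) => fdoInd (g • τ))
      (∑ g ∈ ({g₀, -g₀} : Finset SL(2, ℤ)), fdoInd (g • τ)) := by
    refine hasSum_sum_of_ne_finset_zero fun g hg => ?_
    refine Set.indicator_of_notMem (fun hmem => hg ?_) _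
    rcases eq_one_or_neg_one_of_mem_fdo_mem_fdo (g := g * g₀⁻¹) hg₀'
        (by rwa [mul_smul, inv_smul_smul]) with h1 | h1
    · rw [Finset.mem_insert]; exact Or.inl (mul_inv_eq_one.mp h1)
    · rw [Finset.mem_insert, Finset.mem_singleton]
      exact Or.inr (by rw [← mul_inv_cancel_right g g₀⁻¹, inv_inv, h1]; simp)
  rw [Finset.sum_pair hne, hneg, show fdoInd (g₀ • τ) = 1 from Set.indicator_of_mem hg₀' _,
    show (1 : ℝ) + 1 = 2 by norm_num] at key
  exact key

variable (H : Subgroup SL(2, ℤ)) [H.FiniteIndex]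

local instance : Fintype (SL(2, ℤ) ⧸ H) := Subgroup.fintypeQuotientOfFiniteIndex

/-- The decomposition of the group along representatives of the left cosets. -/
def cosetEquiv : (SL(2, ℤ) ⧸ H) × H ≃ SL(2, ℤ) :=
  Equiv.ofBijective (fun p => p.1.out * (p.2 : SL(2, ℤ))) ⟨fun p p' h => by
      have hq : p.1 = p'.1 := by
        have h1 := congrArg (fun g : SL(2, ℤ) => (g : SL(2, ℤ) ⧸ H)) h
        simp only [QuotientGroup.mk_mul_of_mem _ p.2.2, QuotientGroup.mk_mul_of_mem _ p'.2.2,
          QuotientGroup.out_eq'] at h1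
        exact h1
      refine Prod.ext hq (Subtype.ext ?_)
      have h' : p.1.out * (p.2 : SL(2, ℤ)) = p'.1.out * (p'.2 : SL(2, ℤ)) := h
      rw [hq] at h'
      exact mul_left_cancel h',
    fun g => ⟨((g : SL(2, ℤ) ⧸ H),
      ⟨(g : SL(2, ℤ) ⧸ H).out⁻¹ * g, QuotientGroup.eq.mp (QuotientGroup.out_eq' _)⟩),
      mul_inv_cancel_left _ _⟩⟩

/-- The weight: half the sum of the indicators of translates of the fundamental domain by coset
representatives. -/
def weight (τ : ℍ) : ℝ := 2⁻¹ * ∑ q : SL(2, ℤ) ⧸ H, fdoInd (q.out • τ)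

theorem weight_nonneg (τ : ℍ) : 0 ≤ weight H τ :=
  mul_nonneg (by norm_num) (Finset.sum_nonneg fun _ _ => fdoInd_nonneg _)

theorem measurable_weight : Measurable (weight H) :=
  (Finset.measurable_sum _ fun q _ => measurable_fdoInd.comp
    (measurableEmbedding_glSmul (q.out : GL (Fin 2) ℝ)).measurable).const_mul _

theorem integrable_weight : Integrable (weight H) := by
  refine (integrable_finsetSum _ fun q _ => ?_).const_mul _
  exact (measurePreserving_glSmul (q.out : GL (Fin 2) ℝ)).integrable_comp_of_integrable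
    integrable_fdoInd

/-- The translates of the weight by the subgroup add up to one. -/
theorem hasSum_weight : ∀ᵐ τ : ℍ, HasSum (fun γ : H => weight H (γ • τ)) 1 := by
  filter_upwards [ae_forall_notMem_boundary] with τ hτ
  have h := hasSum_fdoInd hτ
  rw [← (cosetEquiv H).hasSum_iff] at h
  have h' := h.mul_left (2⁻¹ : ℝ)
  rw [inv_mul_cancel₀ (two_ne_zero' ℝ)] at h'
  have hflip := (Equiv.prodComm H (SL(2, ℤ) ⧸ H)).hasSum_iff.mpr h'
  refine hflip.prod_fiberwise fun γ => ?_
  have hfin : HasSum (fun q : SL(2, ℤ) ⧸ H => 2⁻¹ * fdoInd ((q.out * (γ : SL(2, ℤ))) • τ))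
      (weight H (γ • τ)) := by
    simp only [mul_smul]
    rw [weight, Finset.mul_sum]
    exact hasSum_fintype _
  convert hfin using 2 with q
  · rfl
  · exact rfl

end Fermat.Agent.HeckeSemisimple
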