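import Mathlib.MeasureTheory.Integral.DominatedConvergence
import Mathlib.NumberTheory.ModularForms.Bounds
import Fermat.Agent.HeckeSemisimple.Weight
import Fermat.Agent.HeckeModule.Trace
import Fermat.Agent.LevelRaising.Reps
import Fermat.Prelude.Def_ModularForm_HeckeOperatorForms

/-!
# The Petersson product on `S₂(Γ₀(N))` and the self-adjointness of `T_p`, `p ∤ N`

The product is the integral of the Petersson integrand against `weight (Γ₀(N))`.  Inserting
`∑_γ W(γ α τ) = 1` turns `⟨T_p f, g⟩` into a sum over all integral matrices of determinant `p`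
with lower left entry divisible by `N`, a set stable under the adjugate; this gives adjointness.
-/

set_option autoImplicit false

noncomputable section

open MeasureTheory UpperHalfPlane CongruenceSubgroup Filter
open scoped MatrixGroups ModularForm ComplexConjugate Topology Manifold

namespace Fermat.Agent.HeckeSemisimple

open LevelRaising HeckeModule

/-! ### The integrand in weight two -/

/-- In weight two the integrand is invariant under matrices of positive determinant. -/
theorem petersson_two_slash {g : GL (Fin 2) ℝ} (hg : 0 < g.det.val) (f f' : ℍ → ℂ) (τ : ℍ) :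
    petersson 2 (f ∣[(2 : ℤ)] g) (f' ∣[(2 : ℤ)] g) τ = petersson 2 f f' (g • τ) := by
  rw [petersson_slash, sub_self, zpow_zero, one_mul, UpperHalfPlane.σ, if_pos hg]
  rfl

theorem norm_petersson_le (k : ℤ) (f f' : ℍ → ℂ) (τ : ℍ) :
    ‖petersson k f f' τ‖ ≤ ‖petersson k f f τ‖ + ‖petersson k f' f' τ‖ := by
  simp only [petersson, norm_mul, Complex.norm_conj]
  have h1 : ‖f τ‖ * ‖f' τ‖ ≤ ‖f τ‖ * ‖f τ‖ + ‖f' τ‖ * ‖f' τ‖ := by
    nlinarith [sq_nonneg (‖f τ‖ - ‖f' τ‖), norm_nonneg (f τ), norm_nonneg (f' τ)]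
  rw [← add_mul]
  exact mul_le_mul_of_nonneg_right h1 (norm_nonneg _)

/-- A function with continuous, bounded Petersson norm. -/
def Tame (f : ℍ → ℂ) : Prop := Continuous f ∧ ∃ C, ∀ τ, ‖petersson 2 f f τ‖ ≤ C

theorem Tame.petersson_bound {f g : ℍ → ℂ} (hf : Tame f) (hg : Tame g) :
    ∃ C, ∀ τ, ‖petersson 2 f g τ‖ ≤ C := by
  obtain ⟨C, hC⟩ := hf.2
  obtain ⟨D, hD⟩ := hg.2
  exact ⟨C + D, fun τ => (norm_petersson_le 2 f g τ).trans (add_le_add (hC τ) (hD τ))⟩

theorem Tame.slash {f : ℍ → ℂ} (hf : Tame f) {g : GL (Fin 2) ℝ} (hg : 0 < g.det.val) :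
    Tame (f ∣[(2 : ℤ)] g) := by
  refine ⟨?_, ?_⟩
  · have : (f ∣[(2 : ℤ)] g) = fun τ => f (g • τ) * ((|g.det.val| : ℝ) : ℂ) ^ ((2 : ℤ) - 1) *
        denom g τ ^ (-(2 : ℤ)) := by
      funext τ
      rw [ModularForm.slash_apply, UpperHalfPlane.σ, if_pos hg]
      rfl
    rw [this]
    refine ((hf.1.comp (continuous_const_smul g)).mul continuous_const).mul ?_
    refine Continuous.zpow₀ ?_ _ fun τ => Or.inl (denom_ne_zero g τ)
    unfold UpperHalfPlane.denom
    fun_prop
  · obtain ⟨C, hC⟩ := hf.2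
    exact ⟨C, fun τ => by rw [petersson_two_slash hg]; exact hC _⟩

variable (N : ℕ) [NeZero N]

theorem tame_cuspForm (f : CuspForm (Gamma0 N) 2) : Tame ⇑f :=
  ⟨(CuspFormClass.holo f).continuous,
    CuspFormClass.petersson_bounded_left 2 (Gamma0 N : Subgroup (GL (Fin 2) ℝ)) f f⟩

/-- The weight for `Γ₀(N)`. -/
abbrev wt : ℍ → ℝ := weight (Gamma0 N)

/-- The Petersson product. -/
def pet (f g : ℍ → ℂ) : ℂ := ∫ τ, (wt N τ : ℂ) * petersson 2 f g τ

variable {N}

theorem norm_wt_mul {h : ℍ → ℂ} {τ : ℍ} {C : ℝ} (hh : ‖h τ‖ ≤ C) :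
    ‖(wt N τ : ℂ) * h τ‖ ≤ wt N τ * C := by
  rw [norm_mul, Complex.norm_real, Real.norm_of_nonneg (weight_nonneg _ _)]
  exact mul_le_mul_of_nonneg_left hh (weight_nonneg _ _)

theorem integrable_pet {f g : ℍ → ℂ} (hf : Tame f) (hg : Tame g) :
    Integrable fun τ => (wt N τ : ℂ) * petersson 2 f g τ := by
  obtain ⟨C, hC⟩ := hf.petersson_bound hg
  refine ((integrable_weight (Gamma0 N)).mul_const C).mono' ?_
    (ae_of_all _ fun τ => norm_wt_mul (hC τ))
  exact ((Complex.measurable_ofReal.comp (measurable_weight _)).aestronglyMeasurable).mul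
    (petersson_continuous 2 hf.1 hg.1).aestronglyMeasurable

theorem pet_conj (f g : ℍ → ℂ) : conj (pet N f g) = pet N g f := by
  rw [pet, ← integral_conj]
  refine integral_congr_ae (ae_of_all _ fun τ => ?_)
  simp only [map_mul, Complex.conj_ofReal, ← petersson_symm]

theorem pet_sum_left {ι : Type*} (s : Finset ι) {f : ι → ℍ → ℂ} {g : ℍ → ℂ}
    (hf : ∀ i ∈ s, Tame (f i)) (hg : Tame g) :
    pet N (∑ i ∈ s, f i) g = ∑ i ∈ s, pet N (f i) g := by
  simp only [pet]
  rw [← integral_finsetSum s fun i hi => integrable_pet (hf i hi) hg]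
  refine integral_congr_ae (ae_of_all _ fun τ => ?_)
  simp only [petersson, Finset.sum_apply, map_sum, Finset.mul_sum, Finset.sum_mul]

theorem pet_smul_left (c : ℂ) (f g : ℍ → ℂ) : pet N (c • f) g = conj c * pet N f g := by
  simp only [pet, ← integral_const_mul]
  refine integral_congr_ae (ae_of_all _ fun τ => ?_)
  simp only [petersson, Pi.smul_apply, smul_eq_mul, map_mul]
  ring

/-- Positivity: a tame invariant function of norm zero vanishes. -/
theorem eq_zero_of_pet_self_eq_zero {f : ℍ → ℂ} (hf : Tame f)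
    (hinv : ∀ γ : Gamma0 N, f ∣[(2 : ℤ)] ((γ : SL(2, ℤ)) : GL (Fin 2) ℝ) = f)
    (h : pet N f f = 0) : f = 0 := by
  set q : ℍ → ℝ := fun τ => ‖f τ‖ ^ 2 * τ.im ^ 2 with hq
  have hpq : ∀ τ, petersson 2 f f τ = (q τ : ℂ) := fun τ => by
    simp only [petersson, hq, Complex.conj_mul']
    push_cast
    rw [zpow_ofNat]
  have hqc : Continuous q := (hf.1.norm.pow 2).mul (UpperHalfPlane.continuous_im.pow 2)
  have hq0 : ∀ τ, 0 ≤ q τ := fun τ => by positivity
  have hint : Integrable fun τ => wt N τ * q τ := by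
    refine (integrable_pet (N := N) hf hf).re.congr (ae_of_all _ fun τ => ?_)
    simp [hpq, ← Complex.ofReal_mul]
  have h0 : (∫ τ, wt N τ * q τ) = 0 := by
    have : pet N f f = ((∫ τ, wt N τ * q τ : ℝ) : ℂ) := by
      rw [pet, ← integral_complex_ofReal]
      refine integral_congr_ae (ae_of_all _ fun τ => ?_)
      simp [hpq]
    rw [h] at this
    exact_mod_cast this.symm
  have hae : ∀ᵐ τ : ℍ, wt N τ * q τ = 0 := by
    exact (integral_eq_zero_iff_of_nonneg (fun τ => mul_nonneg (weight_nonneg _ τ) (hq0 τ))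
      hint).mp h0
  have hall : ∀ᵐ τ : ℍ, ∀ γ : Gamma0 N,
      wt N (((γ : SL(2, ℤ)) : GL (Fin 2) ℝ) • τ) * q τ = 0 := by
    rw [ae_all_iff]
    intro γ
    have hdet : (0 : ℝ) < ((γ : SL(2, ℤ)) : GL (Fin 2) ℝ).det.val := by simp
    filter_upwards [(measurePreserving_glSmul
      ((γ : SL(2, ℤ)) : GL (Fin 2) ℝ)).quasiMeasurePreserving.ae hae] with τ hτ
    have := petersson_two_slash hdet f f τ
    rw [hinv γ, hpq, hpq] at this
    rw [Complex.ofReal_inj.mp this]
    exact hτ
  have hzero : q =ᵐ[volume] 0 := by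
    filter_upwards [hall, hasSum_weight (Gamma0 N)] with τ h1 h2
    have h3 := h2.mul_right (q τ)
    rw [one_mul] at h3
    have e : (fun γ : Gamma0 N => weight (Gamma0 N) (γ • τ) * q τ) = fun _ => 0 := funext h1
    rw [e] at h3
    exact h3.unique hasSum_zero
  have := hqc.ae_eq_iff_eq volume continuous_zero |>.mp hzero
  funext τ
  have hτ : ‖f τ‖ ^ 2 * τ.im ^ 2 = 0 := congrFun this τ
  simpa [τ.im_ne_zero] using hτ

/-! ### The matrices of determinant `p` -/

variable (N) (p : ℕ) [hp : Fact p.Prime]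

omit [NeZero N] in
/-- An element of `Γ₀(N)` as an integral matrix of level `N`. -/
theorem coe_mem_lvl (γ : Gamma0 N) : ((γ : SL(2, ℤ)) : Mat) ∈ Lvl N :=
  ⟨(γ : SL(2, ℤ)).det_coe, (ZMod.intCast_zmod_eq_zero_iff_dvd _ _).mp (Gamma0_mem.mp γ.2)⟩

omit [NeZero N] in
theorem det_ne_zero_detLevel (s : DetLevel N (p : ℤ)) : (s : Mat).det ≠ 0 := by
  rw [s.2.1]
  exact_mod_cast hp.out.ne_zero

/-- An integral matrix of determinant `p` in `GL₂(ℝ)`. -/
def matR (s : DetLevel N (p : ℤ)) : GL (Fin 2) ℝ := matGL s.1 (det_ne_zero_detLevel N p s)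

omit [NeZero N] in
theorem det_matR (s : DetLevel N (p : ℤ)) : (matR N p s).det.val = p := by
  rw [Matrix.GeneralLinearGroup.val_det_apply, matR, val_matGL]
  have := (Int.castRingHom ℝ).map_det s.1
  rw [s.2.1] at this
  simpa using this.symm

omit [NeZero N] in
theorem det_matR_pos (s : DetLevel N (p : ℤ)) : 0 < (matR N p s).det.val := by
  rw [det_matR]
  exact_mod_cast hp.out.pos

/-- The adjugate as an involution. -/
def adjEquiv : DetLevel N (p : ℤ) ≃ DetLevel N (p : ℤ) :=
  Function.Involutive.toPerm (fun s => ⟨s.1.adjugate, adjugate_mem_detLevel s.2⟩) fun s =>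
    Subtype.ext (by simp [Matrix.adjugate_adjugate])

variable {p} (hpN : ¬ p ∣ N)

/-- Unique factorisation through `heckMat`. -/
def factEquiv : Option (Fin p) × Gamma0 N ≃ DetLevel N (p : ℤ) :=
  Equiv.ofBijective (fun x => ⟨((x.2 : SL(2, ℤ)) : Mat) * heckMat p x.1,
      (fact_heckMat_one hp.out hpN).mem _ (coe_mem_lvl N x.2) x.1⟩) ⟨fun x y h => by
    have h' := congrArg Subtype.val h
    have hi := (fact_heckMat_one hp.out hpN).unique (coe_mem_lvl N x.2) (coe_mem_lvl N y.2) h'
    refine Prod.ext hi (Subtype.ext (Subtype.ext (mat_cancel_right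
      ((fact_heckMat_one hp.out hpN).det_ne_zero x.1) ?_)))
    simpa [hi] using h',
  fun s => by
    obtain ⟨i, y, hy, hs⟩ := (fact_heckMat_one hp.out hpN).fact s.1 s.2
    exact ⟨(i, ⟨⟨y, hy.1⟩, Gamma0_mem.mpr ((ZMod.intCast_zmod_eq_zero_iff_dvd _ _).mpr hy.2)⟩),
      Subtype.ext hs.symm⟩⟩

omit [NeZero N] in
theorem factEquiv_apply (i : Option (Fin p)) (γ : Gamma0 N) :
    (factEquiv N hpN (i, γ) : Mat) = ((γ : SL(2, ℤ)) : Mat) * heckMat p i := rfl

/-- The representatives of `T_p` in `GL₂(ℝ)`. -/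
def tRep (i : Option (Fin p)) : GL (Fin 2) ℝ := matR N p (factEquiv N hpN (i, 1))

omit [NeZero N] in
theorem matR_factEquiv (i : Option (Fin p)) (γ : Gamma0 N) :
    matR N p (factEquiv N hpN (i, γ)) = ((γ : SL(2, ℤ)) : GL (Fin 2) ℝ) * tRep N hpN i := by
  apply Units.ext
  ext a b
  simp [tRep, matR, val_matGL, factEquiv_apply, Matrix.mul_apply]

theorem det_tRep_pos (i : Option (Fin p)) : 0 < (tRep N hpN i).det.val := det_matR_pos N p _

omit [NeZero N] in
theorem sum_slash_tRep (f : ℍ → ℂ) :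
    ∑ i, f ∣[(2 : ℤ)] tRep N hpN i = ModularForm.heckeT 2 p f := by
  have hnone : tRep N hpN none = ModularForm.heckeDiagMatrix p := by
    apply Units.ext
    simp only [tRep, matR, val_matGL, ModularForm.val_heckeDiagMatrix hp.out.ne_zero]
    ext a b
    fin_cases a <;> fin_cases b <;> simp [factEquiv_apply, heckMat, mm]
  have hsome : ∀ j : Fin p, tRep N hpN (some j) = ModularForm.heckeMatrix p j := fun j => by
    apply Units.ext
    simp only [tRep, matR, val_matGL, ModularForm.val_heckeMatrix hp.out.ne_zero]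
    ext a b
    fin_cases a <;> fin_cases b <;> simp [factEquiv_apply, heckMat, mm]
  rw [Fintype.sum_option, hnone, ModularForm.heckeT_def, add_comm]
  simp only [hsome]
  rw [Fin.sum_univ_eq_sum_range (fun j => f ∣[(2 : ℤ)] ModularForm.heckeMatrix p j)]

/-- The term of `⟨T f, g⟩` attached to an integral matrix. -/
def term (f g : ℍ → ℂ) (s : DetLevel N (p : ℤ)) : ℂ :=
  ∫ τ, (wt N (matR N p s • τ) : ℂ) *
    ((wt N τ : ℂ) * petersson 2 (f ∣[(2 : ℤ)] matR N p s) g τ)

include hpN in
/-- `⟨T_p f, g⟩` as a sum over all matrices of determinant `p`. -/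
theorem hasSum_term (f : CuspForm (Gamma0 N) 2) {g : ℍ → ℂ} (hg : Tame g) :
    HasSum (term N (p := p) ⇑f g) (pet N (ModularForm.heckeT 2 p ⇑f) g) := by
  have hf := tame_cuspForm N f
  have hinv : ∀ (γ : Gamma0 N) (a : GL (Fin 2) ℝ),
      (⇑f) ∣[(2 : ℤ)] (((γ : SL(2, ℤ)) : GL (Fin 2) ℝ) * a) = (⇑f) ∣[(2 : ℤ)] a := fun γ a => by
    rw [SlashAction.slash_mul]
    congr 1
    exact SlashInvariantFormClass.slash_action_eq f _ (Subgroup.mem_map_of_mem _ γ.2)
  have key : ∀ i, HasSum (fun γ : Gamma0 N => term N (⇑f) g (factEquiv N hpN (i, γ)))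
      (pet N ((⇑f) ∣[(2 : ℤ)] tRep N hpN i) g) := by
    intro i
    set a := tRep N hpN i with ha
    have hfa := hf.slash (det_tRep_pos N hpN i)
    obtain ⟨C, hC⟩ := hfa.petersson_bound hg
    have hae : ∀ᵐ τ : ℍ, HasSum (fun γ : Gamma0 N => wt N ((γ : SL(2, ℤ)) • a • τ)) 1 := by
      have h0 := Measure.QuasiMeasurePreserving.ae
        (p := fun τ : ℍ => HasSum (fun γ : Gamma0 N => weight (Gamma0 N) (γ • τ)) 1)
        (measurePreserving_glSmul a).quasiMeasurePreserving (hasSum_weight (Gamma0 N))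
      filter_upwards [h0] with τ hτ
      exact hτ
    set h : ℍ → ℂ := fun τ => (wt N τ : ℂ) * petersson 2 ((⇑f) ∣[(2 : ℤ)] a) g τ with hh
    have hmeas : ∀ γ : Gamma0 N, Measurable fun τ : ℍ => wt N ((γ : SL(2, ℤ)) • a • τ) :=
      fun γ => (measurable_weight _).comp
        ((measurableEmbedding_glSmul ((γ : SL(2, ℤ)) : GL (Fin 2) ℝ)).measurable.comp
          (measurableEmbedding_glSmul a).measurable)
    have hI : Integrable fun τ => wt N τ * C := (integrable_weight (Gamma0 N)).mul_const C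
    have := hasSum_integral_of_dominated_convergence (μ := volume)
      (F := fun (γ : Gamma0 N) τ => (wt N ((γ : SL(2, ℤ)) • a • τ) : ℂ) * h τ) (f := h)
      (fun γ τ => wt N ((γ : SL(2, ℤ)) • a • τ) * (wt N τ * C))
      (fun γ => ((Complex.measurable_ofReal.comp (hmeas γ)).aestronglyMeasurable).mul
        (integrable_pet hfa hg).aestronglyMeasurable)
      (fun γ => ae_of_all _ fun τ => by
        rw [norm_mul, Complex.norm_real, Real.norm_of_nonneg (weight_nonneg _ _)]
        exact mul_le_mul_of_nonneg_left (norm_wt_mul (hC τ)) (weight_nonneg _ _))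
      (hae.mono fun τ hτ => (hτ.mul_right _).summable)
      (hI.congr (hae.mono fun τ hτ => ((hτ.mul_right _).tsum_eq.trans (one_mul _)).symm))
      (hae.mono fun τ hτ => by
        simpa using (Complex.hasSum_ofReal.mpr hτ).mul_right (h τ))
    convert this using 2 with γ
    · rfl
    · show (∫ τ, (wt N (matR N p (factEquiv N hpN (i, γ)) • τ) : ℂ) *
        ((wt N τ : ℂ) * petersson 2 ((⇑f) ∣[(2 : ℤ)] matR N p (factEquiv N hpN (i, γ))) g τ)) = _
      rw [matR_factEquiv, ← ha, hinv γ a]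
      refine integral_congr_ae (ae_of_all _ fun τ => ?_)
      simp only [hh, mul_smul]
      rfl
    · rfl
  rw [← (factEquiv N hpN).hasSum_iff, ← sum_slash_tRep N hpN,
    pet_sum_left _ (fun i _ => hf.slash (det_tRep_pos N hpN i)) hg]
  have hsingle : ∀ i, HasSum (Set.indicator {x : Option (Fin p) × Gamma0 N | x.1 = i}
      (term N (⇑f) g ∘ factEquiv N hpN)) (pet N ((⇑f) ∣[(2 : ℤ)] tRep N hpN i) g) := fun i => by
    refine ((Prod.mk_right_injective i).hasSum_iff fun x hx => ?_).mp ?_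
    · refine Set.indicator_of_notMem
        (show x ∉ {x : Option (Fin p) × Gamma0 N | x.1 = i} from fun hi => hx ⟨x.2, ?_⟩) _
      exact Prod.ext hi.symm rfl
    · convert key i using 1
      funext γ
      simp [Function.comp_apply]
  have := hasSum_sum fun i (_ : i ∈ Finset.univ) => hsingle i
  convert this using 1
  funext x
  rw [Finset.sum_eq_single x.1]
  · simp
  · intro i _ hi
    exact Set.indicator_of_notMem
      (show x ∉ {x : Option (Fin p) × Gamma0 N | x.1 = i} from fun h => hi h.symm) _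
  · simp

omit [NeZero N] in
/-- Scalar matrices act trivially in weight two. -/
theorem slash_matR_mul_adj (f : ℍ → ℂ) (s : DetLevel N (p : ℤ)) :
    f ∣[(2 : ℤ)] (matR N p s * matR N p (adjEquiv N p s)) = f ∧
      ∀ τ : ℍ, matR N p s • matR N p (adjEquiv N p s) • τ = τ := by
  have hp0 : (p : ℝ) ≠ 0 := by exact_mod_cast hp.out.ne_zero
  set z := matR N p s * matR N p (adjEquiv N p s) with hz
  have hval : (z : Matrix (Fin 2) (Fin 2) ℝ) = (p : ℝ) • 1 := by
    rw [hz, Matrix.GeneralLinearGroup.coe_mul, matR, matR, val_matGL, val_matGL]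
    show _ * ((s.1.adjugate).map _) = _
    rw [← Matrix.map_mul_intCast, Matrix.mul_adjugate, s.2.1]
    ext a b
    simp only [Matrix.map_apply, Matrix.smul_apply, Matrix.one_apply, smul_eq_mul]
    split_ifs <;> simp
  have hdet : z.det.val = (p : ℝ) * p := by
    rw [hz, map_mul, Units.val_mul, det_matR, det_matR]
  have hpos : 0 < z.det.val := by rw [hdet]; positivity
  have hsmul : ∀ τ : ℍ, z • τ = τ := fun τ => by
    apply UpperHalfPlane.ext
    rw [UpperHalfPlane.coe_smul_of_det_pos hpos, UpperHalfPlane.num, UpperHalfPlane.denom, hval]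
    simp only [Matrix.smul_apply, Matrix.one_apply_eq, ne_eq, zero_ne_one, one_ne_zero,
      not_false_eq_true, Matrix.one_apply_ne, smul_eq_mul, mul_one, mul_zero,
      Complex.ofReal_zero, add_zero, zero_mul, zero_add]
    simp [hp.out.ne_zero]
  refine ⟨?_, fun τ => by rw [← mul_smul]; exact hsmul τ⟩
  funext τ
  rw [ModularForm.slash_apply, UpperHalfPlane.σ, if_pos hpos, hsmul, hdet, UpperHalfPlane.denom,
    hval]
  have hpc : (p : ℂ) ≠ 0 := by exact_mod_cast hp.out.ne_zero
  simp only [ContinuousAlgEquiv.refl_apply, Matrix.smul_apply, Matrix.one_apply_eq, ne_eq,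
    one_ne_zero, not_false_eq_true, Matrix.one_apply_ne, smul_eq_mul, mul_one, mul_zero,
    Complex.ofReal_zero, zero_mul, zero_add, abs_mul, Nat.abs_cast, Complex.ofReal_natCast]
  push_cast
  rw [zpow_one, zpow_neg, zpow_ofNat, pow_two, mul_assoc, mul_inv_cancel₀ (mul_ne_zero hpc hpc), mul_one]

theorem term_eq_conj (f g : ℍ → ℂ) (s : DetLevel N (p : ℤ)) :
    term N f g s = conj (term N g f (adjEquiv N p s)) := by
  obtain ⟨hsl, hfix⟩ := slash_matR_mul_adj N f s
  set t := matR N p (adjEquiv N p s) with ht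
  rw [term, term, ← (measurePreserving_glSmul t).integral_comp (measurableEmbedding_glSmul t),
    ← integral_conj]
  refine integral_congr_ae (ae_of_all _ fun τ => ?_)
  simp only [map_mul, Complex.conj_ofReal, ← petersson_symm, ← ht]
  rw [hfix, ← petersson_two_slash (det_matR_pos N p (adjEquiv N p s)), ← ht,
    ← SlashAction.slash_mul, hsl]
  ring

include hpN in
/-- `T_p` is self-adjoint for the Petersson product. -/
theorem pet_heckeT (f g : CuspForm (Gamma0 N) 2) :
    pet N (ModularForm.heckeT 2 p ⇑f) ⇑g = pet N ⇑f (ModularForm.heckeT 2 p ⇑g) := by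
  have h1 := hasSum_term N hpN f (tame_cuspForm N g)
  have h2 := Complex.hasSum_conj'.mpr (hasSum_term N hpN g (tame_cuspForm N f))
  rw [← (adjEquiv N p).hasSum_iff] at h2
  rw [← pet_conj (ModularForm.heckeT 2 p ⇑g) ⇑f]
  refine h1.unique ?_
  convert h2 using 1
  funext s
  exact term_eq_conj N (p := p) _ _ _

end Fermat.Agent.HeckeSemisimple
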